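import Mathlib.NumberTheory.ModularForms.CongruenceSubgroups
import Mathlib.Tactic.LinearCombination
import Fermat.Prelude.Def_ModularForm_HeckeOperator
import Fermat.Agent.RT.GammaH.Hecke

/-!
# The Hecke operator at a good prime on `Γ₁(N)`
-/

set_option autoImplicit false

noncomputable section

open CongruenceSubgroup ModularForm UpperHalfPlane
open Matrix.SpecialLinearGroup (mapGL)
open Fermat.Agent.RT.GammaH
open scoped MatrixGroups ModularForm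

namespace Fermat.Agent.DeligneSerre

variable {N p : ℕ}

theorem mem_gamma1_iff {A : SL(2, ℤ)} :
    A ∈ Gamma1 N ↔ (A 1 0 : ZMod N) = 0 ∧ (A 1 1 : ZMod N) = 1 := by
  rw [Gamma1_mem]
  refine ⟨fun h => ⟨h.2.2, h.2.1⟩, fun h => ⟨?_, h.2, h.1⟩⟩
  have hd := congrArg (Int.cast : ℤ → ZMod N) A.det_coe
  rw [Matrix.det_fin_two] at hd
  push_cast at hd
  rwa [h.1, h.2, mul_one, mul_zero, sub_zero] at hd

theorem gamma1_conj {γ A : SL(2, ℤ)} (hγ : γ ∈ Gamma0 N) (hA : A ∈ Gamma1 N) :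
    γ * A * γ⁻¹ ∈ Gamma1 N := by
  have hA0 : A ∈ Gamma0 N := Gamma1_in_Gamma0 N hA
  have hmem : γ * A * γ⁻¹ ∈ Gamma0 N := mul_mem (mul_mem hγ hA0) (inv_mem hγ)
  have h1 : Gamma0Map N ⟨A, hA0⟩ = 1 := (mem_gamma1_iff.1 hA).2
  have h : Gamma0Map N (⟨γ, hγ⟩ * ⟨A, hA0⟩ * ⟨γ, hγ⟩⁻¹) = 1 := by
    rw [map_mul, map_mul, h1, mul_one, ← map_mul, mul_inv_cancel, map_one]
  exact mem_gamma1_iff.2 ⟨Gamma0_mem.1 hmem, h⟩

theorem coe_mapGL_apply (A : SL(2, ℤ)) (i j : Fin 2) :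
    ((mapGL ℝ A : GL (Fin 2) ℝ) : Matrix (Fin 2) (Fin 2) ℝ) i j = (A i j : ℝ) := by
  simp

theorem exists_sl2 (a b c d : ℤ) (h : a * d - b * c = 1) :
    ∃ A : SL(2, ℤ), A 0 0 = a ∧ A 0 1 = b ∧ A 1 0 = c ∧ A 1 1 = d :=
  ⟨⟨!![a, b; c, d], by rw [Matrix.det_fin_two_of]; exact h⟩, rfl, rfl, rfl, rfl⟩

/-- A coset operator preserves invariance. -/
theorem sum_slash_rep {Γ' Γ : Subgroup SL(2, ℤ)} {ι : Type} [Fintype ι] {rep : ι → GLR}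
    (h : Admissible Γ' Γ rep) (k : ℤ) {F : ℍ → ℂ} (hF : ∀ γ ∈ Γ', F ∣[k] γ = F) {g : SL(2, ℤ)}
    (hg : g ∈ Γ) : (∑ i, F ∣[k] rep i) ∣[k] g = ∑ i, F ∣[k] rep i := by
  obtain ⟨σ, hσ⟩ := h ⟨g, hg⟩
  rw [SL_slash, SlashAction.sum_slash]
  refine Fintype.sum_bijective σ hσ.1 _ _ fun i => ?_
  obtain ⟨c, hc⟩ := exists_of_mem_img (hσ.2 i)
  show (F ∣[k] rep i) ∣[k] (mapGL ℝ g : GLR) = _
  rw [← SlashAction.slash_mul,
    show rep i * mapGL ℝ g = mapGL ℝ (c : SL(2, ℤ)) * rep (σ i) by rw [hc, inv_mul_cancel_right],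
    SlashAction.slash_mul]
  exact congrArg (· ∣[k] rep (σ i)) (hF _ c.2)

/-- `T_p = U_p + ⟨p⟩ V_p` preserves invariance under `Γ₁(N)`. -/
theorem heckeSum_slash (hp : p.Prime) (hpN : ¬ p ∣ N) {γp : SL(2, ℤ)} (hγp : γp ∈ Gamma0 N)
    (hγpp : (γp 1 1 : ZMod N) = p) (k : ℤ) {F : ℍ → ℂ}
    (hF : ∀ γ ∈ Gamma1 N, F ∣[k] γ = F) {g : SL(2, ℤ)} (hg : g ∈ Gamma1 N) :
    (heckeU k p F + (F ∣[k] γp) ∣[k] heckeDiagMatrix p) ∣[k] g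
      = heckeU k p F + (F ∣[k] γp) ∣[k] heckeDiagMatrix p := by
  have := Fact.mk hp
  have hbot : gammaH N ⊥ = Gamma1 N := by
    ext A
    rw [mem_gammaH, Gamma1_mem]
    refine ⟨fun ⟨hc, u, hu, ha⟩ => ?_, fun h => ⟨h.2.2, 1, rfl, by rw [h.1, Units.val_one]⟩⟩
    rw [Subgroup.mem_bot.1 hu, Units.val_one] at ha
    have hd : (A 0 0 : ZMod N) * A 1 1 - A 0 1 * A 1 0 = 1 := by
      exact_mod_cast congrArg (Int.cast : ℤ → ZMod N) (Gamma0.det_eq A)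
    rw [ha, hc, mul_zero, sub_zero, one_mul] at hd
    exact ⟨ha, hd, hc⟩
  set u := ZMod.unitOfCoprime p (hp.coprime_iff_not_dvd.2 hpN)
  have hγ' : F ∣[k] γp = F ∣[k] gamma0Elt u⁻¹ := by
    have hm : γp * (gamma0Elt u⁻¹)⁻¹ ∈ Gamma1 N := by
      have hm0 := mul_mem hγp (inv_mem (gamma0Elt_mem u⁻¹))
      refine mem_gamma1_iff.2 ⟨Gamma0_mem.1 hm0, ?_⟩
      show Gamma0Map N (⟨γp, hγp⟩ * ⟨_, gamma0Elt_mem u⁻¹⟩⁻¹) = 1
      rw [map_mul, show Gamma0Map N ⟨γp, hγp⟩ = Gamma0Map N ⟨_, gamma0Elt_mem u⁻¹⟩ from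
        hγpp.trans (by rw [show Gamma0Map N ⟨_, gamma0Elt_mem u⁻¹⟩ = _ from gamma0Elt_lowerRight u⁻¹,
          inv_inv, ZMod.coe_unitOfCoprime]), ← map_mul, mul_inv_cancel, map_one]
    conv_lhs => rw [← inv_mul_cancel_right γp (gamma0Elt u⁻¹), SlashAction.slash_mul, hF _ hm]
  let e : Option (Fin p) ≃ HIdx N p := (Equiv.subtypeUnivEquiv fun _ _ => hpN).symm
  have hsum : heckeU k p F + (F ∣[k] γp) ∣[k] heckeDiagMatrix p = ∑ i, F ∣[k] hRep N p i := by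
    rw [← e.sum_comp, Fintype.sum_option, add_comm, heckeU_def, ← Fin.sum_univ_eq_sum_range]
    congr 1
    rw [hγ', SL_slash, ← SlashAction.slash_mul]
    rfl
  rw [hsum]
  exact sum_slash_rep (admissible_hRep (K := ⊥)) k (fun γ hγ => hF γ (hbot ▸ hγ)) (hbot ▸ hg)

end Fermat.Agent.DeligneSerre
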