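import Fermat.Agent.DeligneSerre.Conjugate
import Fermat.Agent.DeligneSerre.Nebentypus
import Fermat.Prelude.Sol.S_CuspFormClass_isZeroAt_heckeT

/-!
# Removing the Fourier coefficients at indices not prime to the level
-/

set_option autoImplicit false

noncomputable section

open Complex CongruenceSubgroup Filter ModularForm ModularFormClass Matrix
open UpperHalfPlane hiding I
open Matrix.SpecialLinearGroup (mapGL)
open scoped Real MatrixGroups ModularForm Manifold Topology

namespace Fermat.Agent.DeligneSerre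

variable {N : ℕ} [NeZero N]

/-- The Hecke recursion of weight one with character `ε` away from the level. -/
def HeckeRec (ε : DirichletCharacter ℂ N) (a : ℕ → ℂ) : Prop :=
  ∀ p : ℕ, p.Prime → ¬ p ∣ N → ∀ n : ℕ,
    a (p * n) + ε (p : ZMod N) * (if p ∣ n then a (n / p) else 0) = a p * a n

theorem HeckeRec.nebentypus {ε : DirichletCharacter ℂ N} {f : CuspForm (Gamma1 N) 1}
    (hT : HeckeRec ε (qCoeff f)) : HasNeb 1 ε f :=
  fun γ hγ => Fermat.Agent.DeligneSerre.nebentypus hT γ hγ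

theorem HeckeRec.odd {ε : DirichletCharacter ℂ N} {f : CuspForm (Gamma1 N) 1}
    (hT : HeckeRec ε (qCoeff f)) (hf : qCoeff f 1 = 1) : ε.Odd :=
  nebentypus_odd hf hT

/-- `τ ↦ τ + r` as a rational matrix. -/
def ratShift (r : ℚ) : GL (Fin 2) ℚ :=
  Matrix.GeneralLinearGroup.mkOfDetNeZero !![1, r; 0, 1] (by simp [Matrix.det_fin_two_of])

theorem slash_ratShift_apply (f : ℍ → ℂ) (k : ℤ) (r : ℚ) (τ : ℍ) :
    (f ∣[k] Matrix.GeneralLinearGroup.map (Rat.castHom ℝ) (ratShift r)) τ
      = f ((r : ℝ) +ᵥ τ) := by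
  set g := Matrix.GeneralLinearGroup.map (Rat.castHom ℝ) (ratShift r) with hg
  have hdet : (g.det : ℝ) = 1 := by
    simp [hg, ratShift, Matrix.det_fin_two]
  have hden : denom g τ = 1 := by simp [hg, denom, ratShift, Matrix.GeneralLinearGroup.map_apply]
  have hsmul : g • τ = (r : ℝ) +ᵥ τ := by
    apply UpperHalfPlane.ext
    rw [coe_smul_of_det_pos (by rw [hdet]; exact one_pos), coe_vadd]
    simp [hg, num, denom, ratShift, Matrix.GeneralLinearGroup.map_apply, add_comm]
  rw [slash_apply, hden, hdet, hsmul, UpperHalfPlane.σ, if_pos (by rw [hdet]; exact one_pos)]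
  simp

/-- The Fourier weights which isolate the residues prime to `N`. -/
def depleteWeight (j : ZMod N) : ℂ :=
  (N : ℂ)⁻¹ * ∑ r : (ZMod N)ˣ, ZMod.stdAddChar (-(j * (r : ZMod N)))

theorem sum_depleteWeight (x : ZMod N) :
    ∑ j, depleteWeight j * ZMod.stdAddChar (j * x) = if IsUnit x then 1 else 0 := by
  classical
  have hN : (N : ℂ) ≠ 0 := Nat.cast_ne_zero.2 (NeZero.ne N)
  have h : ∀ r : (ZMod N)ˣ, ∑ j : ZMod N, ZMod.stdAddChar (-(j * (r : ZMod N)))
      * ZMod.stdAddChar (j * x) = if x = (r : ZMod N) then (N : ℂ) else 0 := by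
    intro r
    have := AddChar.sum_mulShift (R := ZMod N) (R' := ℂ) (x - r) (ZMod.isPrimitive_stdAddChar N)
    rw [ZMod.card, Nat.cast_ite, Nat.cast_zero] at this
    simp only [sub_eq_zero] at this
    rw [← this]
    refine Finset.sum_congr rfl fun a _ => ?_
    rw [← AddChar.map_add_eq_mul]
    ring_nf
  simp only [depleteWeight, Finset.mul_sum, Finset.sum_mul]
  rw [Finset.sum_comm]
  simp_rw [mul_assoc, ← Finset.mul_sum, h]
  split_ifs with hx
  · obtain ⟨u, rfl⟩ := hx
    simp only [Units.val_inj, Finset.sum_ite_eq, Finset.mem_univ, if_true]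
    exact inv_mul_cancel₀ hN
  · rw [Finset.sum_eq_zero fun r _ => if_neg (by rintro rfl; exact hx r.isUnit), mul_zero]

/-- `∑ (coefficients prime to N)`, as a function. -/
def depleteFun (f : ℍ → ℂ) : ℍ → ℂ :=
  ∑ j : ZMod N, depleteWeight j •
    (f ∣[(1 : ℤ)] Matrix.GeneralLinearGroup.map (Rat.castHom ℝ) (ratShift ((j.val : ℚ) / N)))

theorem depleteFun_slash (f : CuspForm (Gamma1 N) 1) {γ : SL(2, ℤ)} (hγ : γ ∈ Gamma1 (N * N)) :
    depleteFun (N := N) ⇑f ∣[(1 : ℤ)] γ = depleteFun (N := N) ⇑f := by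
  rw [depleteFun, SL_slash, SlashAction.sum_slash]
  refine Finset.sum_congr rfl fun j _ => ?_
  rw [ModularForm.smul_slash, ← SlashAction.slash_mul]
  rw [show UpperHalfPlane.σ (γ : GL (Fin 2) ℝ) = .refl ℝ ℂ by
    simp [UpperHalfPlane.σ, -Matrix.SpecialLinearGroup.map_apply_coe]]
  set g := Matrix.GeneralLinearGroup.map (Rat.castHom ℝ) (ratShift ((j.val : ℚ) / N)) with hg
  obtain ⟨ha, hd, hc⟩ := (Gamma1_mem (N * N) γ).1 hγ
  obtain ⟨c, hc'⟩ := (ZMod.intCast_zmod_eq_zero_iff_dvd _ (N * N)).1 hc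
  obtain ⟨e, he⟩ : ((N * N : ℕ) : ℤ) ∣ γ 1 1 - γ 0 0 :=
    (ZMod.intCast_zmod_eq_zero_iff_dvd _ (N * N)).1 (by push_cast; rw [ha, hd, sub_self])
  push_cast at hc' he
  set i : ℤ := (j.val : ℤ) with hi
  have hdet := γ.det_coe
  rw [Matrix.det_fin_two] at hdet
  obtain ⟨δ, d00, d01, d10, d11⟩ := exists_sl2 (γ 0 0 + i * (N * c))
    (γ 0 1 + i * (N * e) - i * i * c) (γ 1 0) (γ 1 1 - i * (N * c))
    (by rw [hc'] at hdet ⊢; linear_combination hdet + (i * N * c) * he)
  have hδ : δ ∈ Gamma1 N := by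
    refine mem_gamma1_iff.2 ⟨?_, ?_⟩
    · rw [d10, hc']; simp
    · obtain ⟨v, hv⟩ : (N : ℤ) ∣ γ 1 1 - 1 := by
        refine dvd_trans (dvd_mul_right (N : ℤ) N) ?_
        have := (ZMod.intCast_zmod_eq_zero_iff_dvd (γ 1 1 - 1) (N * N)).1 (by
          push_cast; rw [hd, sub_self])
        simpa using this
      rw [d11, show γ 1 1 = 1 + N * v by linarith]
      simp
  have hmul : g * (γ : GL (Fin 2) ℝ) = mapGL ℝ δ * g := by
    have hN : (N : ℝ) ≠ 0 := Nat.cast_ne_zero.2 (NeZero.ne N)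
    have hc'' : (γ 1 0 : ℝ) = N * N * c := by exact_mod_cast hc'
    have he'' : (γ 1 1 : ℝ) - γ 0 0 = N * N * e := by exact_mod_cast he
    refine Units.ext (Matrix.ext fun a b => ?_)
    rw [Units.val_mul, Units.val_mul]
    fin_cases a <;> fin_cases b <;>
      simp [hg, ratShift, Matrix.mul_apply, Fin.sum_univ_two,
        d00, d01, d10, d11, hc'', hi, -ZMod.natCast_val] <;>
      field_simp
    all_goals first
      | linear_combination (j.val : ℝ) * he''
      | ring1
  rw [hmul, SlashAction.slash_mul]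
  have hf : ⇑f ∣[(1 : ℤ)] (mapGL ℝ δ : GL (Fin 2) ℝ) = ⇑f :=
    SlashInvariantFormClass.slash_action_eq f _ ⟨δ, hδ, rfl⟩
  rw [hf]
  simp

theorem depleteFun_zero (f : CuspForm (Gamma1 N) 1) (γ : SL(2, ℤ)) :
    IsZeroAtImInfty (depleteFun (N := N) ⇑f ∣[(1 : ℤ)] γ) := by
  rw [depleteFun, SL_slash, SlashAction.sum_slash]
  refine Finset.sum_induction _ (fun g : ℍ → ℂ => IsZeroAtImInfty g) (fun _ _ ha hb => ha.add hb)
    (zero_zeroAtFilter atImInfty) fun j _ => ?_
  rw [ModularForm.smul_slash, ← SlashAction.slash_mul]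
  refine Filter.ZeroAtFilter.smul _ ?_
  have hmat : Matrix.GeneralLinearGroup.map (Rat.castHom ℝ) (ratShift ((j.val : ℚ) / N))
      * (γ : GL (Fin 2) ℝ) = Matrix.GeneralLinearGroup.map (Rat.castHom ℝ)
        (ratShift ((j.val : ℚ) / N) * mapGL ℚ γ) := by
    rw [map_mul]
    congr 1
    ext a b
    simp [Matrix.GeneralLinearGroup.map_apply]
  rw [hmat]
  show IsZeroAtImInfty _
  rw [← OnePoint.isZeroAt_infty_iff]
  exact P2MW.S_CuspFormClass_isZeroAt_heckeT.ModularForm.S06W2.isZeroAt_slash_ratCast f _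
    (Subgroup.isCusp_of_mem_strictPeriods one_pos one_mem_strictPeriods_gamma1)

theorem mdifferentiable_depleteFun (f : CuspForm (Gamma1 N) 1) :
    MDiff (depleteFun (N := N) ⇑f) :=
  Finset.sum_induction _ (fun g : ℍ → ℂ => MDiff g) (fun _ _ ha hb => ha.add hb)
    mdifferentiable_const fun _ _ => ((CuspFormClass.holo f).slash 1 _).const_smul _

/-- The depleted cusp form on `Γ₁(N²)`. -/
def deplete (f : CuspForm (Gamma1 N) 1) : CuspForm (Gamma1 (N * N)) 1 :=
  mkCuspForm (Gamma1 (N * N)) 1 (depleteFun (N := N) ⇑f) (fun _ hγ => depleteFun_slash f hγ)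
    (mdifferentiable_depleteFun f) (depleteFun_zero f)

open scoped Classical in
theorem qCoeff_deplete (f : CuspForm (Gamma1 N) 1) (n : ℕ) :
    qCoeff (deplete f) n = if n.Coprime N then qCoeff f n else 0 := by
  symm
  refine ModularFormClass.qExpansion_coeff_unique (f := deplete f) one_pos
    (one_mem_strictPeriods_gamma1 (N := N * N))
    (c := fun n => if n.Coprime N then qCoeff f n else 0) (fun τ => ?_) n
  have hsum : ∀ σ : ℍ, HasSum (fun m => qCoeff f m * Function.Periodic.qParam 1 σ ^ m) (f σ) :=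
    fun σ => by
      simpa [smul_eq_mul, qCoeff] using
        ModularForm.hasSum_qExpansion f one_pos one_mem_strictPeriods_gamma1 σ
  show HasSum _ (depleteFun (N := N) ⇑f τ)
  rw [depleteFun, Finset.sum_apply]
  simp only [Pi.smul_apply, slash_ratShift_apply, smul_eq_mul]
  refine (hasSum_sum fun j _ => (hsum (((((j.val : ℚ) / N : ℚ)) : ℝ) +ᵥ τ)).mul_left
    (depleteWeight j)).congr_fun fun m => ?_
  have hqp : ∀ j : ZMod N, Function.Periodic.qParam 1
      ((((((j.val : ℚ) / N : ℚ)) : ℝ) +ᵥ τ : ℍ) : ℂ)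
      = ZMod.stdAddChar j * Function.Periodic.qParam 1 τ := by
    intro j
    rw [ZMod.stdAddChar_apply, ZMod.toCircle_apply, Function.Periodic.qParam,
      Function.Periodic.qParam, ← Complex.exp_add, coe_vadd]
    congr 1
    push_cast
    ring
  simp only [hqp, mul_pow, ← AddChar.map_nsmul_eq_pow, nsmul_eq_mul]
  calc (if m.Coprime N then qCoeff f m else 0) * Function.Periodic.qParam 1 τ ^ m
      = (∑ j, depleteWeight j * ZMod.stdAddChar (j * (m : ZMod N)))
          * (qCoeff f m * Function.Periodic.qParam 1 τ ^ m) := by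
        rw [sum_depleteWeight]
        simp only [ZMod.isUnit_iff_coprime]
        split_ifs <;> ring
    _ = _ := by
        rw [Finset.sum_mul]
        refine Finset.sum_congr rfl fun j _ => ?_
        rw [mul_comm j]
        ring

theorem HeckeRec.deplete {ε : DirichletCharacter ℂ N} {f : CuspForm (Gamma1 N) 1}
    (hT : HeckeRec ε (qCoeff f)) :
    HeckeRec (DirichletCharacter.changeLevel (Dvd.intro N rfl) ε)
      (qCoeff (DeligneSerre.deplete f)) := by
  intro p hp hpN n
  have hpN' : ¬ p ∣ N := fun h => hpN (h.trans (dvd_mul_right N N))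
  have hcp : p.Coprime N := hp.coprime_iff_not_dvd.2 hpN'
  have hε : DirichletCharacter.changeLevel (Dvd.intro N rfl) ε (p : ZMod (N * N))
      = ε (p : ZMod N) := by
    have h := DirichletCharacter.changeLevel_eq_cast_of_dvd' ε
      (Dvd.intro N rfl : N ∣ N * N) (a := (p : ℤ))
      (Int.isCoprime_iff_nat_coprime.2 (by simpa [Int.natAbs_mul] using hcp.mul_right hcp))
    simpa using h
  rw [hε, qCoeff_deplete, qCoeff_deplete, qCoeff_deplete, qCoeff_deplete]
  rw [if_pos hcp]
  by_cases hn : n.Coprime N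
  · rw [if_pos hn, if_pos (hcp.mul_left hn), ← hT p hp hpN' n]
    congr 2
    split_ifs with h h' <;> try rfl
    exact absurd (Nat.Coprime.coprime_div_left hn h) h'
  · rw [if_neg hn, if_neg (fun h => hn h.coprime_mul_left), mul_zero, zero_add]
    split_ifs with h h'
    · exact absurd ((Nat.div_mul_cancel h) ▸ Nat.Coprime.mul_left h' hcp) hn
    · rw [mul_zero]
    · rw [mul_zero]

theorem qCoeff_deplete_one (f : CuspForm (Gamma1 N) 1) :
    qCoeff (deplete f) 1 = qCoeff f 1 := by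
  simp [qCoeff_deplete]

theorem qCoeff_deplete_prime (f : CuspForm (Gamma1 N) 1) {p : ℕ} (hp : p.Prime) (hpN : ¬ p ∣ N) :
    qCoeff (deplete f) p = qCoeff f p := by
  rw [qCoeff_deplete, if_pos (hp.coprime_iff_not_dvd.2 hpN)]

end Fermat.Agent.DeligneSerre
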