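import Fermat.Agent.DeligneSerre.ConnectedRam
import Fermat.Agent.Semistable.ValBase
import Fermat.Agent.Arith.NonunitPrime

/-!
# Valuation rings of algebraic numbers are archimedean
-/

set_option autoImplicit false

noncomputable section

namespace Fermat.Agent.DeligneSerre

open Fermat.Agent.EichlerShimura Fermat.Agent.FF

/-- Valuation rings of `ℚ̄` are archimedean. -/
theorem isArchVal_algebraicClosure (A : ValuationSubring (AlgebraicClosure ℚ)) : IsArchVal A := by
  intro c b hc
  rcases eq_or_ne c 0 with rfl | hc0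
  · exact ⟨1, by simp⟩
  rcases eq_or_ne b 0 with rfl | hb0
  · exact ⟨1, by simp⟩
  have hcn : c ∈ A.nonunits := (ValuationSubring.mem_nonunits_iff A).mpr hc
  obtain ⟨q, hq, hA⟩ := Arith.exists_prime_of_mem_nonunits hc0 hcn
  obtain ⟨n, hn⟩ := Semistable.exists_pow_valuation_lt hA hq hcn (inv_ne_zero hb0)
  refine ⟨n, ?_⟩
  rw [map_inv₀, ← one_div, lt_div_iff₀ (zero_lt_iff.mpr ((Valuation.ne_zero_iff _).mpr hb0))] at hn
  rwa [map_mul]

end Fermat.Agent.DeligneSerre
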