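import Fermat.Agent.DeligneSerre.Criterion

/-!
# From residual representations to the complex representation
-/

set_option autoImplicit false

noncomputable section

namespace Fermat.Agent.DeligneSerre

open CongruenceSubgroup ModularFormClass Filter
open Fermat.Agent.Arith Fermat.Agent.Arith.Density Fermat.Agent.Arith.Chebotarev
open scoped MatrixGroups Topology

variable {N : ℕ} [NeZero N]

theorem natCast_ne_zero_of_map_eq_zero {k : Type*} [Field k] {φ : ZBar →+* k} {ℓ m : ℕ}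
    (hℓ : ℓ.Prime) (h0 : φ ℓ = 0) (hm : m ≠ 0) (hlt : m < ℓ) : (m : k) ≠ 0 := by
  rw [map_natCast] at h0
  have : CharP k ℓ := (CharP.charP_iff_prime_eq_zero hℓ).2 h0
  rw [Ne, CharP.cast_eq_zero_iff k ℓ]
  exact fun hd => hlt.not_ge (Nat.le_of_dvd (Nat.pos_of_ne_zero hm) hd)

theorem sum_comp_surjective {A B : Type*} [Group A] [Group B] [Fintype A] [Fintype B] (π : A →* B)
    (hπ : Function.Surjective π) (f : B → ℝ) :
    ∑ x, f (π x) = (Nat.card π.ker : ℝ) * ∑ y, f y := by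
  classical
  rw [← Finset.sum_fiberwise (Finset.univ : Finset A) π, Finset.mul_sum]
  refine Finset.sum_congr rfl fun y _ => ?_
  obtain ⟨a, rfl⟩ := hπ y
  rw [Finset.sum_congr rfl fun x hx => congrArg f (Finset.mem_filter.1 hx).2, Finset.sum_const,
    nsmul_eq_mul, MonoidHom.card_fiber_eq_of_mem_range π ⟨a, rfl⟩ ⟨1, map_one _⟩,
    Nat.card_eq_fintype_card, Fintype.card_subtype]
  simp [MonoidHom.mem_ker]

theorem isIrreducible_comp {H K : Type} [Group H] [Group K] {π : H →* K}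
    (hπ : Function.Surjective π) (σ : K →* GL (Fin 2) ℂ)
    (h : (Deformation.matrixRepresentation σ).IsIrreducible) :
    (Deformation.matrixRepresentation (σ.comp π)).IsIrreducible := by
  have : Nontrivial (Subrepresentation (Deformation.matrixRepresentation (σ.comp π))) :=
    ⟨⊥, ⊤, fun he => bot_ne_top
      (congrArg Subrepresentation.toSubmodule he : (⊥ : Submodule ℂ (Fin 2 → ℂ)) = ⊤)⟩
  refine ⟨fun W => ?_⟩
  let W' : Subrepresentation (Deformation.matrixRepresentation σ) :=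
    ⟨W.toSubmodule, fun k v hv => by
      obtain ⟨x, rfl⟩ := hπ k
      exact W.apply_mem_toSubmodule x hv⟩
  refine (h.eq_bot_or_eq_top W').imp (fun he => ?_) fun he => ?_ <;>
  · refine Subrepresentation.toSubmodule_injective ?_
    exact (congrArg Subrepresentation.toSubmodule he : _)

/-- The eigenvalues of an eigenform with residual representations are sums of two roots of unity,
and the residual representations have the same kernel for almost all primes. -/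
theorem exists_aligned {ε : DirichletCharacter ℂ N} {g : CuspForm (Gamma1 N) 1}
    (hg : IsDepleted ε (qCoeff g)) (hres : HasResidualReps ε (qCoeff g)) :
    ∃ (L : Set ℕ) (R : ∀ ℓ ∈ L, ResRep ε (qCoeff g) ℓ), L.Infinite ∧ (∀ ℓ ∈ L, ℓ.Prime) ∧
      (∀ (ℓ : ℕ) (hℓ : ℓ ∈ L) (ℓ' : ℕ) (hℓ' : ℓ' ∈ L) (σ : GQ),
        (R ℓ hℓ).ρ σ = 1 → (R ℓ' hℓ').ρ σ = 1) ∧
      ∀ p : ℕ, p.Prime → ¬ p ∣ N → ‖qCoeff g p‖ ≤ 2 := by
  classical
  obtain ⟨m, hm0, hm⟩ := exists_pow_eq_one hg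
  obtain ⟨S, hS⟩ := hres
  let L₀ : Set ℕ := {ℓ | ℓ.Prime ∧ ℓ ∉ S ∧ m < ℓ ∧ 2 < ℓ}
  have hL₀ : L₀.Infinite := by
    refine (Nat.infinite_setOfPred_prime.sdiff ((S ∪ Finset.range (m + 3)).finite_toSet)).mono ?_
    rintro ℓ ⟨hp, hn⟩
    simp only [Finset.coe_union, Set.mem_union, Finset.mem_coe, Finset.mem_range, not_or] at hn
    exact ⟨hp, hn.1, by omega, by omega⟩
  let R : ∀ ℓ ∈ L₀, ResRep ε (qCoeff g) ℓ := fun ℓ hℓ => (hS ℓ hℓ.1 hℓ.2.1).some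
  have hpow : ∀ ℓ (hℓ : ℓ ∈ L₀) σ, (R ℓ hℓ).ρ σ ^ m = 1 := fun ℓ hℓ =>
    hm ℓ _ (by
      simpa using natCast_ne_zero_of_map_eq_zero (m := 2) hℓ.1 (R ℓ hℓ).map_eq_zero
        two_ne_zero hℓ.2.2.2)
  let av : ℕ → ZBar := fun p => ⟨qCoeff g p, isIntegral_coeff hg p⟩
  let ev : ZMod N → ZBar := fun x => ⟨ε x, isIntegral_character ε x⟩
  have hsep : ∀ x y : ZBar, x ≠ y →
      {ℓ | ∃ hℓ : ℓ ∈ L₀, (R ℓ hℓ).φ x = (R ℓ hℓ).φ y}.Finite := by
    intro x y hxy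
    by_contra hinf
    exact hxy (eq_of_map_eq_infinite hinf fun ℓ ⟨hℓ, he⟩ =>
      ⟨hℓ.1, _, (R ℓ hℓ).field, (R ℓ hℓ).φ, (R ℓ hℓ).map_eq_zero, he⟩)
  have hav : ∀ p : ℕ, p.Prime → ¬ p ∣ N → av p ∈ rootSums m := by
    intro p hp hpN
    by_contra hno
    refine (hL₀.sdiff (Set.finite_singleton p)) (((finite_rootSums hm0).biUnion fun x hx =>
      hsep (av p) x (fun he => hno (he ▸ hx))).subset ?_)
    rintro ℓ ⟨hℓ, hne⟩
    obtain ⟨A, hA⟩ := exists_liesOverPrime hp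
    obtain ⟨τ, hτ⟩ := exists_isFrobeniusAt hA hp
    obtain ⟨x, hx, hxe⟩ := exists_trace_eq_of_pow_eq_one (R ℓ hℓ).φ hm0 (hpow ℓ hℓ τ)
    refine Set.mem_biUnion hx ⟨hℓ, ?_⟩
    rw [← hxe, ((R ℓ hℓ).frobenius p hp hpN (fun he => hne he.symm) A hA τ hτ (av p)
      (ev p) rfl rfl).1]
  let Z : Set ZBar := rootSums m ∪ Set.range ev ∪ {1, 2}
  have hZ : Z.Finite := ((finite_rootSums hm0).union (Set.finite_range ev)).union (Set.toFinite _)
  let Bad : Set ℕ := ⋃ z ∈ {z ∈ Z ×ˢ Z | z.1 ≠ z.2},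
    {ℓ | ∃ hℓ : ℓ ∈ L₀, (R ℓ hℓ).φ z.1 = (R ℓ hℓ).φ z.2}
  have hBad : Bad.Finite :=
    ((hZ.prod hZ).subset (Set.sep_subset _ _)).biUnion fun z hz => hsep _ _ hz.2
  refine ⟨L₀ \ Bad, fun ℓ hℓ => R ℓ hℓ.1, hL₀.sdiff hBad, fun ℓ hℓ => hℓ.1.1, ?_, ?_⟩
  · intro ℓ hℓ ℓ' hℓ' σ hσ
    obtain ⟨F, _, hF⟩ := (R ℓ hℓ.1).finite_level
    obtain ⟨F', _, hF'⟩ := (R ℓ' hℓ'.1).finite_level
    obtain ⟨p, hp, hpS, A, hA, τ, hτ, heq⟩ :=
      exists_frobenius_eq ((R ℓ hℓ.1).ρ.prod (R ℓ' hℓ'.1).ρ) (F ⊔ F')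
        (fun τ hτ => Prod.ext (hF τ fun x hx => hτ x (le_sup_left (b := F') hx))
          (hF' τ fun x hx => hτ x (le_sup_right (a := F) hx))) σ
        (insert ℓ (insert ℓ' N.primeFactors))
    simp only [Finset.mem_insert, not_or, Nat.mem_primeFactors] at hpS
    have hpN : ¬ p ∣ N := fun hd => hpS.2.2 ⟨hp, hd, NeZero.ne N⟩
    obtain ⟨h1, h2⟩ := Prod.ext_iff.1 heq
    obtain ⟨ht, hd⟩ := (R ℓ hℓ.1).frobenius p hp hpN hpS.1 A hA τ hτ (av p) (ev p) rfl rfl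
    obtain ⟨ht', hd'⟩ := (R ℓ' hℓ'.1).frobenius p hp hpN hpS.2.1 A hA τ hτ (av p) (ev p) rfl rfl
    simp only [MonoidHom.prod_apply] at h1 h2
    rw [h1, hσ] at ht hd
    rw [Matrix.trace_one, Fintype.card_fin] at ht
    rw [Matrix.det_one] at hd
    have hinj : ∀ x ∈ Z, ∀ y ∈ Z, (R ℓ hℓ.1).φ x = (R ℓ hℓ.1).φ y → x = y := fun x hx y hy he =>
      by_contra fun hne =>
        hℓ.2 (Set.mem_biUnion (x := (x, y)) ⟨⟨hx, hy⟩, hne⟩ ⟨hℓ.1, he⟩)
    have ha : av p = 2 := hinj _ (Or.inl (Or.inl (hav p hp hpN))) _ (Or.inr (Or.inr rfl))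
      (by rw [← ht, map_ofNat]; norm_num)
    have he : ev p = 1 := hinj _ (Or.inl (Or.inr ⟨_, rfl⟩)) _ (Or.inr (Or.inl rfl))
      (by rw [← hd, map_one])
    rw [h2] at ht' hd'
    refine eq_one_of_unipotent (natCast_ne_zero_of_map_eq_zero hℓ'.1.1 (R ℓ' hℓ'.1).map_eq_zero
      hm0 hℓ'.1.2.2.1) (hpow ℓ' hℓ'.1 σ) ?_ ?_
    · rw [ht', ha, map_ofNat]
    · rw [hd', he, map_one]
  · intro p hp hpN
    obtain ⟨z, w, hz, hw, he⟩ := hav p hp hpN
    have hn : ∀ u : ZBar, u ^ m = 1 → ‖(u : ℂ)‖ = 1 := fun u hu =>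
      Complex.norm_eq_one_of_pow_eq_one (by simpa using congrArg (fun x : ZBar => (x : ℂ)) hu) hm0
    have he' : qCoeff g p = (z : ℂ) + w := congrArg (fun x : ZBar => (x : ℂ)) he
    rw [he']
    calc ‖(z : ℂ) + w‖ ≤ ‖(z : ℂ)‖ + ‖(w : ℂ)‖ := norm_add_le _ _
      _ = 2 := by rw [hn z hz, hn w hw]; norm_num

/-- A depleted weight one eigenform with residual representations has an irreducible complex
Galois representation of finite image. -/
theorem exists_galoisRep {ε : DirichletCharacter ℂ N} {g : CuspForm (Gamma1 N) 1}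
    (hg : IsDepleted ε (qCoeff g)) (hres : HasResidualReps ε (qCoeff g)) :
    ∃ ρ : GQ →* GL (Fin 2) ℂ, GaloisFactorsThroughFiniteLevel ρ ∧
      (Deformation.matrixRepresentation ρ).IsIrreducible ∧
      ∀ p : ℕ, p.Prime → ¬ p ∣ N → ∀ A : ValuationSubring QBar, A.LiesOverPrime p →
        (∀ σ ∈ A.inertiaSubgroupIn ℚ, ρ σ = 1) ∧
        ∀ σ : GQ, A.IsFrobeniusAt σ p →
          ((ρ σ : GL (Fin 2) ℂ) : Matrix (Fin 2) (Fin 2) ℂ).trace = qCoeff g p ∧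
          ((ρ σ : GL (Fin 2) ℂ) : Matrix (Fin 2) (Fin 2) ℂ).det = ε (p : ZMod N) := by
  classical
  obtain ⟨L, R, hLinf, hLp, hker, hbound⟩ := exists_aligned hg hres
  obtain ⟨ℓ₀, hℓ₀⟩ := hLinf.nonempty
  let R₀ := R ℓ₀ hℓ₀
  obtain ⟨F₀, _, _, ρ₀, hρ₀⟩ := exists_galois_level R₀.finite_level
  let u₀ := ρ₀.toHomUnits
  let G := u₀.range
  have : Fintype Gal(F₀/ℚ) := Fintype.ofFinite _
  have : Fintype G := Fintype.ofFinite _
  let q : GQ →* G := u₀.rangeRestrict.comp (AlgEquiv.restrictNormalHom F₀)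
  have hq : Function.Surjective q :=
    u₀.rangeRestrict_surjective.comp (AlgEquiv.restrictNormalHom_surjective (F := ℚ) QBar)
  have hq_iff : ∀ σ, q σ = 1 ↔ R₀.ρ σ = 1 := fun σ => by
    rw [← hρ₀ σ, Subtype.ext_iff, Units.ext_iff]
    rfl
  have hsame : ∀ (ℓ : ℕ) (hℓ : ℓ ∈ L) (σ τ : GQ), q σ = q τ →
      (R ℓ hℓ).ρ σ = (R ℓ hℓ).ρ τ := by
    intro ℓ hℓ σ τ he
    have h1 : (R ℓ hℓ).ρ (τ⁻¹ * σ) = 1 := hker ℓ₀ hℓ₀ ℓ hℓ _
      ((hq_iff _).1 (by rw [map_mul, map_inv, he, inv_mul_cancel]))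
    rw [← mul_inv_cancel_left τ σ, map_mul, h1, mul_one]
  obtain ⟨F₁, _, hF₁⟩ : GaloisFactorsThroughFiniteLevel q := by
    obtain ⟨F, hF, h⟩ := R₀.finite_level
    exact ⟨F, hF, fun σ hσ => (hq_iff σ).2 (h σ hσ)⟩
  have hfrob : ∀ y : G, ∃ p : ℕ, p.Prime ∧ p ∉ N.primeFactors ∧ ∃ A : ValuationSubring QBar,
      A.LiesOverPrime p ∧ ∃ τ : GQ, A.IsFrobeniusAt τ p ∧ q τ = y := by
    intro y
    obtain ⟨σ, rfl⟩ := hq y
    exact exists_frobenius_eq q F₁ hF₁ σ _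
  choose P hP hPN A hA τ hτ hqτ using hfrob
  have hPN' : ∀ y, ¬ P y ∣ N := fun y hd =>
    hPN y (Nat.mem_primeFactors.2 ⟨hP y, hd, NeZero.ne N⟩)
  let t : G → ZBar := fun y => ⟨qCoeff g (P y), isIntegral_coeff hg _⟩
  let d : G → ZBar := fun y => ⟨ε (P y : ZMod N), isIntegral_character ε _⟩
  set L' := L \ ↑(Finset.univ.image P) with hL'
  have hres' : ∀ ℓ ∈ L', ℓ.Prime ∧ ∃ (k : Type) (_ : Field k) (φ : ZBar →+* k)
      (σ : G →* Matrix (Fin 2) (Fin 2) k), φ ℓ = 0 ∧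
        (∀ y, (σ y).trace = φ (t y) ∧ (σ y).det = φ (d y)) := by
    rintro ℓ ⟨hℓ, hℓP⟩
    refine ⟨hLp ℓ hℓ, _, (R ℓ hℓ).field, (R ℓ hℓ).φ,
      { toFun := fun y => (R ℓ hℓ).ρ (τ y)
        map_one' := (hsame ℓ hℓ _ 1 (by rw [hqτ, map_one])).trans (map_one _)
        map_mul' := fun y z => (hsame ℓ hℓ _ (τ y * τ z)
          (by rw [map_mul, hqτ, hqτ, hqτ])).trans (map_mul _ _ _) },
      (R ℓ hℓ).map_eq_zero, fun y => ?_⟩
    exact (R ℓ hℓ).frobenius (P y) (hP y) (hPN' y)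
      (fun he => hℓP (Finset.mem_coe.2 (Finset.mem_image.2 ⟨y, Finset.mem_univ _, he⟩)))
      (A y) (hA y) (τ y) (hτ y) (t y) (d y) rfl rfl
  obtain ⟨σ, hσ⟩ := exists_rep_of_residual t d (hLinf.sdiff (Finset.finite_toSet _)) hres'
  have hvals : ∀ p : ℕ, p.Prime → ¬ p ∣ N → ∀ B : ValuationSubring QBar, B.LiesOverPrime p →
      ∀ x : GQ, B.IsFrobeniusAt x p →
      (t (q x) : ℂ) = qCoeff g p ∧ (d (q x) : ℂ) = ε (p : ZMod N) := by
    intro p hp hpN B hB x hx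
    have hinf : (L' \ {p}).Infinite :=
      (hLinf.sdiff (Finset.finite_toSet _)).sdiff (Set.finite_singleton p)
    have key : ∀ ℓ (hm : ℓ ∈ L' \ {p}),
        (R ℓ hm.1.1).φ (t (q x)) = (R ℓ hm.1.1).φ ⟨qCoeff g p, isIntegral_coeff hg p⟩ ∧
        (R ℓ hm.1.1).φ (d (q x)) = (R ℓ hm.1.1).φ ⟨ε (p : ZMod N), isIntegral_character ε _⟩ := by
      rintro ℓ ⟨⟨hℓ, hℓP⟩, hne⟩
      obtain ⟨a1, a2⟩ := (R ℓ hℓ).frobenius p hp hpN (fun h => hne h.symm) B hB x hx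
        ⟨qCoeff g p, isIntegral_coeff hg p⟩ ⟨ε (p : ZMod N), isIntegral_character ε _⟩ rfl rfl
      obtain ⟨b1, b2⟩ := (R ℓ hℓ).frobenius (P (q x)) (hP _) (hPN' _)
        (fun he => hℓP (Finset.mem_coe.2 (Finset.mem_image.2 ⟨_, Finset.mem_univ _, he⟩)))
        (A _) (hA _) (τ _) (hτ _) (t (q x)) (d (q x)) rfl rfl
      rw [← a1, ← a2, hsame ℓ hℓ x (τ (q x)) (hqτ (q x)).symm]
      exact ⟨b1.symm, b2.symm⟩
    exact ⟨congrArg Subtype.val (eq_of_map_eq_infinite (y := (⟨qCoeff g p, isIntegral_coeff hg p⟩ : ZBar))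
        hinf fun ℓ hm => ⟨hLp ℓ hm.1.1, _, (R ℓ hm.1.1).field, (R ℓ hm.1.1).φ, (R ℓ hm.1.1).map_eq_zero, (key ℓ hm).1⟩),
      congrArg Subtype.val (eq_of_map_eq_infinite (y := (⟨ε (p : ZMod N), isIntegral_character ε _⟩ : ZBar))
        hinf fun ℓ hm => ⟨hLp ℓ hm.1.1, _, (R ℓ hm.1.1).field, (R ℓ hm.1.1).φ, (R ℓ hm.1.1).map_eq_zero, (key ℓ hm).2⟩)⟩
  refine ⟨σ.comp q, ⟨F₁, inferInstance, fun x hx => by
    rw [MonoidHom.comp_apply, hF₁ x hx, map_one]⟩, isIrreducible_comp hq σ ?_,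
    fun p hp hpN B hB => ⟨fun x hx => ?_, fun x hx => ?_⟩⟩
  · by_contra hirr
    obtain ⟨χ₁, χ₂, hχ⟩ := exists_characters_of_not_irreducible σ hirr
    have hlow := two_mul_card_le_sum_sq χ₁ χ₂
    simp_rw [← hχ] at hlow
    obtain ⟨K, hK⟩ := exists_sum_primes_le_of_bounded g hg.hecke hg.one hbound
    let π := u₀.rangeRestrict
    let T : G → ℝ := fun y => ‖((σ y : GL (Fin 2) ℂ) : Matrix (Fin 2) (Fin 2) ℂ).trace‖ ^ 2
    have havg := sum_le_of_chebotarev F₀ (F := fun x => T (π x))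
      (C := (∑ p ∈ N.primeFactors, T (q (frobAt p))) + K) (κ := 1) (fun x => sq_nonneg _)
      (fun x y => by
        have := trace_map_conj ((Units.coeHom _).comp (σ.comp π)) x y
        simp only [T]
        exact congrArg (fun z : ℂ => ‖z‖ ^ 2) this)
      fun P' hP' s hs hs2 => by
        rw [← Finset.sum_filter_add_sum_filter_not P' (fun p => p ∈ N.primeFactors), add_sub_assoc]
        refine add_le_add ?_ ?_
        · refine (Finset.sum_le_sum fun p hp => ?_).trans (Finset.sum_le_sum_of_subset_of_nonneg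
            (fun p hp => (Finset.mem_filter.1 hp).2) fun p _ _ => sq_nonneg _)
          exact mul_le_of_le_one_right (sq_nonneg _) (Real.rpow_le_one_of_one_le_of_nonpos
            (by exact_mod_cast (hP' p (Finset.mem_filter.1 hp).1).one_le) (by linarith))
        · rw [one_mul]
          refine le_trans (Finset.sum_le_sum fun p hp => le_of_eq ?_) (hK _ (fun p hp => ?_) s hs hs2)
          · obtain ⟨hp1, hp2⟩ := Finset.mem_filter.1 hp
            have hpp := hP' p hp1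
            have hpN : ¬ p ∣ N := fun hd => hp2 (Nat.mem_primeFactors.2 ⟨hpp, hd, NeZero.ne N⟩)
            show T (q (frobAt p)) * _ = _
            simp only [T]
            rw [(hσ _).1, (hvals p hpp hpN _ (exists_liesOverPrime hpp).choose_spec _
              (frobAt_spec hpp)).1]
          · obtain ⟨hp1, hp2⟩ := Finset.mem_filter.1 hp
            exact ⟨hP' p hp1,
              fun hd => hp2 (Nat.mem_primeFactors.2 ⟨hP' p hp1, hd, NeZero.ne N⟩)⟩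
    rw [sum_comp_surjective π u₀.rangeRestrict_surjective, one_mul] at havg
    have hcard : Fintype.card Gal(F₀/ℚ) = Nat.card π.ker * Fintype.card G := by
      rw [← Nat.card_eq_fintype_card, ← Nat.card_eq_fintype_card,
        u₀.ker_rangeRestrict, ← Subgroup.index_ker u₀, Subgroup.card_mul_index]
    rw [hcard, Nat.cast_mul] at havg
    have hpos : (0 : ℝ) < Nat.card π.ker := by exact_mod_cast Nat.card_pos
    have hGpos : (0 : ℝ) < Fintype.card G := by exact_mod_cast Fintype.card_pos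
    have := le_of_mul_le_mul_left havg hpos
    linarith
  · have hq1 : q x = 1 := by
      rw [hq_iff]
      rcases eq_or_ne p ℓ₀ with rfl | hne
      · obtain ⟨ℓ, hℓ, hℓne⟩ := (hLinf.sdiff (Set.finite_singleton p)).nonempty
        exact hker ℓ hℓ p hℓ₀ x
          ((R ℓ hℓ).inertia p hp hpN (fun h => hℓne h.symm) B hB x hx)
      · exact R₀.inertia p hp hpN hne B hB x hx
    rw [MonoidHom.comp_apply, hq1, map_one]
  · obtain ⟨h1, h2⟩ := hσ (q x)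
    obtain ⟨h3, h4⟩ := hvals p hp hpN B hB x hx
    exact ⟨h1.trans h3, h2.trans h4⟩

end Fermat.Agent.DeligneSerre
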