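import Fermat.Agent.EichlerShimura.RedDivisor
import Fermat.Agent.EichlerShimura.Flip

/-!
# Auxiliary facts on models: constants, the chart at infinity, values at points
-/

set_option autoImplicit false
set_option linter.unusedSectionVars false

noncomputable section

open scoped Classical
open Polynomial IsLocalRing AlgebraicCurve

namespace Fermat.Agent.DeligneSerre

open Fermat.Agent.EichlerShimura Fermat.Agent.FF

section Integral

variable {K : Type*} [Field K] {E : Type*} [CommRing E] [Algebra K E]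

/-- Idempotents are integral over every subring. -/
theorem isIntegral_idempotent (R : Subring K) {e : E} (he : IsIdempotentElem e) : IsIntegral R e :=
  ⟨X ^ 2 - X, monic_X_pow_sub (by rw [degree_X]; exact WithBot.coe_lt_coe.mpr one_lt_two), by
    rw [eval₂_sub, eval₂_X_pow, eval₂_X, pow_two, he, sub_self]⟩

/-- Clearing denominators of an element of a finite algebra. -/
theorem exists_mul_isIntegral [Module.Finite K E] (R : Subring K)
    (hR : ∀ f : K, ∃ r ∈ R, r ≠ 0 ∧ r * f ∈ R) (y : E) :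
    ∃ r ∈ R, r ≠ 0 ∧ IsIntegral R (algebraMap K E r * y) := by
  set P := cpoly K y with hP
  choose r hr hr0 hrf using fun i => hR (P.coeff i)
  set Q := ∏ i ∈ Finset.range P.natDegree, r i with hQ
  have hQR : Q ∈ R := prod_mem fun i _ => hr i
  refine ⟨Q, hQR, Finset.prod_ne_zero_iff.mpr fun i _ => hr0 i, ?_⟩
  refine isIntegral_of_monic_coeff (q := P.scaleRoots Q)
    ((monic_scaleRoots_iff _).mpr (cpoly_monic _)) (fun i => ?_)
    (scaleRoots_aeval_eq_zero (aeval_cpoly _))
  rw [coeff_scaleRoots]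
  rcases lt_or_ge i P.natDegree with hi | hi
  · rw [show P.natDegree - i = (P.natDegree - i - 1) + 1 by omega, pow_succ', ← mul_assoc]
    refine mul_mem ?_ (pow_mem hQR _)
    rw [hQ, ← Finset.mul_prod_erase _ _ (Finset.mem_range.mpr hi), ← mul_assoc, mul_comm (P.coeff i)]
    exact mul_mem (hrf i) (prod_mem fun j _ => hr j)
  · rw [show P.natDegree - i = 0 by omega, pow_zero, mul_one]
    rcases eq_or_lt_of_le hi with h | h
    · rw [← h, hP, (cpoly_monic y).coeff_natDegree]; exact one_mem _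
    · rw [coeff_eq_zero_of_natDegree_lt h]; exact zero_mem _

end Integral

section Line

variable {K₀ : Type*} [Field K₀]

theorem invX_C (a : K₀) : invX K₀ (RatFunc.C a) = RatFunc.C a := invXHom_C a

theorem invX_X : invX K₀ RatFunc.X = (RatFunc.X : RatFunc K₀)⁻¹ := invXHom_X

theorem algebraMap_reflect {p : K₀[X]} {m : ℕ} (h : p.natDegree ≤ m) :
    algebraMap K₀[X] (RatFunc K₀) (reflect m p) =
      RatFunc.X ^ m * invX K₀ (algebraMap K₀[X] (RatFunc K₀) p) := by
  revert h
  refine fun h => Polynomial.induction_with_natDegree_le (fun p => algebraMap K₀[X] (RatFunc K₀)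
    (reflect m p) = RatFunc.X ^ m * invX K₀ (algebraMap K₀[X] (RatFunc K₀) p)) m (by simp)
    (fun n a _ hn => ?_) (fun f g _ _ hf hg => by simp [reflect_add, hf, hg, mul_add]) p h
  rw [reflect_C_mul_X_pow, revAt_le hn]
  simp only [map_mul, map_pow, RatFunc.algebraMap_C, RatFunc.algebraMap_X, invX_C, invX_X]
  rw [pow_sub₀ _ RatFunc.X_ne_zero hn, inv_pow]
  ring

theorem X_pow_mul_invX_mem_Loc {p : K₀[X]} {m : ℕ} (h : p.natDegree ≤ m) :
    RatFunc.X ^ m * invX K₀ (algebraMap K₀[X] (RatFunc K₀) p) ∈ Loc (0 : K₀) :=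
  algebraMap_reflect h ▸ algebraMap_mem_Loc _ _

theorem natDegree_le_of_invX_mem {q : K₀[X]} {m : ℕ}
    (h : RatFunc.X ^ m * invX K₀ (algebraMap K₀[X] (RatFunc K₀) q) ∈ Loc (0 : K₀)) :
    q.natDegree ≤ m := by
  by_contra! hm
  obtain ⟨j, hj⟩ := Nat.exists_eq_add_of_lt hm
  have hq : q ≠ 0 := fun h0 => by simp [h0] at hm
  have h1 := algebraMap_reflect (le_refl q.natDegree)
  set N := q.natDegree
  rw [hj, show m + j + 1 = (j + 1) + m by omega, pow_add, mul_assoc] at h1
  have h2 : evalLoc (0 : K₀) ⟨_, algebraMap_mem_Loc 0 (reflect N q)⟩ =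
      evalLoc 0 ⟨_, algebraMap_mem_Loc 0 (X ^ (j + 1))⟩ * evalLoc 0 ⟨_, h⟩ := by
    rw [← map_mul]
    refine congrArg _ (Subtype.ext ?_)
    show _ = algebraMap K₀[X] (RatFunc K₀) (X ^ (j + 1)) * _
    rw [map_pow, RatFunc.algebraMap_X, ← h1, hj]
    rw [show m + j + 1 = j + 1 + m by omega]
  rw [evalLoc_algebraMap, evalLoc_algebraMap, eval_pow, eval_X, zero_pow (Nat.succ_ne_zero j),
    zero_mul, ← coeff_zero_eq_eval_zero, coeff_reflect, revAt_le (Nat.zero_le _), Nat.sub_zero] at h2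
  exact hq (leadingCoeff_eq_zero.mp h2)

theorem invX_mem_Loc {c : K₀} (hc : c ≠ 0) {f : RatFunc K₀} (hf : f ∈ Loc c⁻¹) :
    invX K₀ f ∈ Loc c := by
  have he : invX K₀ RatFunc.X * algebraMap K₀[X] (RatFunc K₀) X = algebraMap _ _ (1 : K₀[X]) := by
    rw [invX_X, RatFunc.algebraMap_X, inv_mul_cancel₀ RatFunc.X_ne_zero, map_one]
  have hc' : (X : K₀[X]).eval c ≠ 0 := by simpa using hc
  refine map_mem_Loc (invX K₀).toRingHom (fun a => invX_C a) (t := c) ⟨1, X, hc', he⟩ ?_ hf
  rw [evalLoc_eq _ hc' he, eval_one, eval_X, one_div]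

theorem denom_eq_one_of_forall_mem_Loc [IsAlgClosed K₀] {f : RatFunc K₀} (h : ∀ c, f ∈ Loc c) :
    f = algebraMap K₀[X] (RatFunc K₀) f.num := by
  have hd : f.denom.degree = 0 := by
    by_contra h0
    obtain ⟨c, hc⟩ := IsAlgClosed.exists_root f.denom h0
    exact denom_eval_ne_zero (h c) hc
  conv_lhs => rw [← RatFunc.num_div_denom f, (RatFunc.monic_denom f).degree_le_zero_iff_eq_one.mp
    hd.le, map_one, _root_.div_one]

variable {B : Type*} [CommRing B] [Algebra (RatFunc K₀) B]

theorem norm_flipped {ι : Type*} [Fintype ι] (b : Module.Basis ι (RatFunc K₀) B) (x : B) :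
    Algebra.norm (RatFunc K₀) (flipRing B x) = invX K₀ (Algebra.norm (RatFunc K₀) x) := by
  rw [Algebra.norm_eq_matrix_det (flipBasis b), Algebra.norm_eq_matrix_det b, RingEquiv.map_det]
  congr 1
  ext i j
  rw [RingEquiv.mapMatrix_apply, Matrix.map_apply, Algebra.leftMulMatrix_eq_repr_mul,
    Algebra.leftMulMatrix_eq_repr_mul, flipBasis_apply, ← map_mul, flipBasis_repr]

theorem algebraMap_flipped_C (r : K₀) :
    algebraMap (RatFunc K₀) (Flipped B) (RatFunc.C r) =
      flipRing B (algebraMap (RatFunc K₀) B (RatFunc.C r)) := by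
  rw [algebraMap_flipped, invX_C]

/-- Integrality passes to the chart at infinity away from its centre. -/
theorem isIntegral_flip {c : K₀} (hc : c ≠ 0) {y : B} (hy : IsIntegral (Loc c⁻¹).toSubring y) :
    IsIntegral (Loc c).toSubring (flipRing B y) := by
  obtain ⟨p, hp, hpy⟩ := hy
  refine ⟨p.map (((invX K₀).toRingHom.comp (Loc c⁻¹).toSubring.subtype).codRestrict
    (Loc c).toSubring fun f => invX_mem_Loc hc f.2), hp.map _, ?_⟩
  rw [eval₂_map]
  have h1 := congrArg (flipRing B) hpy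
  rw [map_zero, ← RingEquiv.coe_toRingHom, hom_eval₂] at h1
  refine Eq.trans (congrArg (fun σ => p.eval₂ σ _) (RingHom.ext fun f => ?_)) h1
  show algebraMap (RatFunc K₀) (Flipped B) (invX K₀ (f : RatFunc K₀)) = _
  rw [algebraMap_flipped, invX_invX]
  rfl

end Line

variable {L : Type*} [Field L] {A : ValuationSubring L}

/-- The value group of `A` is archimedean. -/
def IsArchVal (A : ValuationSubring L) : Prop :=
  ∀ c b : L, A.valuation c < 1 → ∃ n : ℕ, A.valuation (c ^ n * b) < 1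

theorem mem_of_valuation_lt_one {r : L} (hr : A.valuation r < 1) :
    ∃ h : r ∈ A, residue A ⟨r, h⟩ = 0 := by
  have h := (A.valuation_le_one_iff r).mp hr.le
  exact ⟨h, (IsLocalRing.residue_eq_zero_iff _).mpr ((A.valuation_lt_one_iff ⟨r, h⟩).mpr hr)⟩

variable {ι : Type*} [Fintype ι]
variable {E : Type*} [CommRing E] [Algebra (RatFunc L) E]
variable {Eb : Type*} [CommRing Eb] [Algebra (RatFunc (Kappa A)) Eb]

variable (E) in
/-- A constant, as an element of `E`. -/
def cst : L →+* E := (algebraMap (RatFunc L) E).comp RatFunc.C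

theorem cst_mem_S (M : Model A ι E Eb) {r : L} (hr : r ∈ A) : cst E r ∈ M.S :=
  M.algebraMap_mem (C_mem_Og hr)

theorem red_cst (M : Model A ι E Eb) {r : L} (hr : r ∈ A) :
    M.red ⟨cst E r, cst_mem_S M hr⟩ = cst Eb (residue A ⟨r, hr⟩) := by
  refine (M.red_algebraMap (C_mem_Og hr)).trans ?_
  rw [redG_C hr]
  rfl

theorem red_eq_zero_of_eq_cst_mul (M : Model A ι E Eb) {x y : M.S} {r : L}
    (hr : A.valuation r < 1) (h : (x : E) = cst E r * y) : M.red x = 0 := by
  obtain ⟨hrA, hr0⟩ := mem_of_valuation_lt_one hr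
  rw [show x = ⟨cst E r, cst_mem_S M hrA⟩ * y from Subtype.ext h, map_mul, red_cst M hrA, hr0, map_zero,
    zero_mul]

theorem red_cst_mul_eq (M : Model A ι E Eb) {g g' : M.S} {a b : L} (ha : a ≠ 0)
    (h : cst E a * (g : E) = cst E b * g') (hg : M.red g' ≠ 0) :
    ∃ u : Kappa A, M.red g = cst Eb u * M.red g' := by
  have hg' : (g : E) = cst E (b / a) * g' := by
    calc (g : E) = cst E a⁻¹ * (cst E a * g) := by
          rw [← mul_assoc, ← map_mul, inv_mul_cancel₀ ha, map_one, one_mul]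
      _ = cst E (b / a) * g' := by rw [h, ← mul_assoc, ← map_mul, div_eq_inv_mul]
  by_cases hr : b / a ∈ A
  · exact ⟨residue A ⟨_, hr⟩, by
      rw [show g = ⟨cst E (b / a), cst_mem_S M hr⟩ * g' from Subtype.ext hg', map_mul, red_cst]⟩
  · refine absurd ?_ hg
    have hlt : A.valuation (b / a)⁻¹ < 1 := by
      rw [map_inv₀]
      exact inv_lt_one_of_one_lt₀ (lt_of_not_ge fun h' => hr ((A.valuation_le_one_iff _).mp h'))
    refine red_eq_zero_of_eq_cst_mul M hlt (y := g) ?_
    have hne : b / a ≠ 0 := fun h0 => hr (h0 ▸ zero_mem A)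
    rw [hg', ← mul_assoc, ← map_mul, inv_mul_cancel₀ hne, map_one, one_mul]

theorem exists_eq_cst_mul_of_red_eq_zero (M : Model A ι E Eb) {x : M.S} (h : M.red x = 0) :
    ∃ (c : L) (u : M.S), A.valuation c < 1 ∧ (x : E) = cst E c * u := by
  rcases eq_or_ne (x : E) 0 with h0 | h0
  · exact ⟨0, 1, by simp, by simp [h0]⟩
  obtain ⟨c, hc, z, hxz, hz⟩ := M.exists_scale' h0
  refine ⟨c, z, ?_, hxz⟩
  by_contra hlt
  refine hz ?_
  have hi : c⁻¹ ∈ A := (A.valuation_le_one_iff _).mp (by
    rw [map_inv₀]; exact inv_le_one_of_one_le₀ (not_lt.mp hlt))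
  rw [show z = ⟨cst E c⁻¹, cst_mem_S M hi⟩ * x from Subtype.ext (by
    show (z : E) = cst E c⁻¹ * (x : E)
    rw [show (x : E) = cst E c * z from hxz, ← mul_assoc, ← map_mul, inv_mul_cancel₀ hc, map_one,
      one_mul]), map_mul, h, mul_zero]

theorem mem_S_of_flip (M : Model A ι E Eb) {y : E} (hy : flipRing E y ∈ M.flip.S) : y ∈ M.S :=
  fun i => by
    have h := hy i
    rw [show M.flip.b = flipBasis M.b from rfl, flipBasis_repr] at h
    rw [← invX_invX (M.b.repr y i)]
    exact invX_mem_Og h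

variable [DecidableEq ι] [IsAlgClosed L]

/-- Idempotents of the reduction lift to functions regular over the disc of `t`. -/
def IdemLiftAt (M : Model A ι E Eb) (t : Kappa A) : Prop :=
  ∀ e : Eb, IsIdempotentElem e → ∃ Z : Rint E ({t} : Set (Kappa A)), M.redT {t} Z = e

section Field

variable {E : Type*} [Field E] [Algebra (RatFunc L) E] [Algebra L E] [IsScalarTower L (RatFunc L) E]
  [FiniteDimensional (RatFunc L) E] [IsFunctionField L E]

theorem cst_eq_algebraMap (r : L) : cst E r = algebraMap L E r := by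
  rw [IsScalarTower.algebraMap_apply L (RatFunc L) E, RatFunc.algebraMap_eq_C]
  rfl

variable (M : Model A ι E Eb) {t : Kappa A} {c : A} (hc : residue A c = t) {P : Place L E}
  (hP : P.restrict (RatFunc L) = placeAtPt (c : L))

include hc hP in
theorem mem_place_of_mem_Rint {y : E} (hy : y ∈ Rint E ({t} : Set (Kappa A))) :
    y ∈ P.toValuationSubring :=
  mem_place_of_isIntegral hP (isIntegral_mono (Lam_le_Loc (T := {t}) hc) (mem_Rint.mp hy))

/-- The inclusion of `Rint` into the valuation ring of a point over the disc. -/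
def toPlace : Rint E ({t} : Set (Kappa A)) →+* P.toValuationSubring :=
  (Rint E ({t} : Set (Kappa A))).subtype.codRestrict P.toValuationSubring
    fun Y => mem_place_of_mem_Rint hc hP Y.2

theorem valAtP_toPlace_mem (Y : Rint E ({t} : Set (Kappa A))) :
    valAtP P (toPlace hc hP Y) ∈ A := by
  obtain ⟨p, hp, hpY⟩ := mem_Rint.mp Y.2
  let φ : Lam A ({t} : Set (Kappa A)) →+* A :=
    ((evalLoc (c : L)).comp (Subring.inclusion (Lam_le_Loc (T := {t}) hc))).codRestrict A
      fun f => (residue_evalLoc hc f.2).1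
  let ψ : Lam A ({t} : Set (Kappa A)) →+* P.toValuationSubring :=
    ((algebraMap (RatFunc L) E).comp (Lam A {t}).subtype).codRestrict P.toValuationSubring
      fun f => algebraMap_mem_place hP (Lam_le_Loc (T := {t}) hc f.2)
  have h1 : p.eval₂ ψ (toPlace hc hP Y) = 0 := Subtype.ext (by
    show P.toValuationSubring.subtype _ = 0
    rw [hom_eval₂]
    exact hpY)
  have h2 := congrArg (valAtP P) h1
  rw [map_zero, hom_eval₂] at h2
  have hint : IsIntegral A (valAtP P (toPlace hc hP Y)) := by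
    refine ⟨p.map φ, hp.map _, ?_⟩
    rw [eval₂_map]
    refine Eq.trans (congrArg (fun σ => p.eval₂ σ _) (RingHom.ext fun f => ?_)) h2
    show evalLoc (c : L) ⟨(f : RatFunc L), _⟩ = valAtP P ⟨algebraMap (RatFunc L) E f, _⟩
    rw [valAtP_algebraMap hP (Lam_le_Loc (T := {t}) hc f.2)]
  obtain ⟨y, hy⟩ := (IsIntegrallyClosed.isIntegral_iff (R := A) (K := L)).mp hint
  exact hy ▸ y.2

/-- The value at a point over the disc. -/
def valHom : Rint E ({t} : Set (Kappa A)) →+* A :=
  ((valAtP P).comp (toPlace hc hP)).codRestrict A fun Y => valAtP_toPlace_mem hc hP Y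

theorem sub_valHom_mem (Y : Rint E ({t} : Set (Kappa A))) :
    (Y : E) - algebraMap L E (valHom hc hP Y : L) ∈ ordGe P 1 :=
  sub_valAtP_mem P _

include M in
theorem residue_valHom_eq_zero {Y : Rint E ({t} : Set (Kappa A))} (h : M.redT {t} Y = 0) :
    residue A (valHom hc hP Y) = 0 := by
  obtain ⟨r, u, hr, hYu⟩ := exists_eq_cst_mul_of_red_eq_zero M (x := M.incl {t} Y) h
  obtain ⟨hrA, hr0⟩ := mem_of_valuation_lt_one hr
  rcases eq_or_ne r 0 with rfl | hr'
  · rw [show Y = 0 from Subtype.ext (hYu.trans (by simp)), map_zero, map_zero]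
  have hu : (u : E) ∈ Rint E ({t} : Set (Kappa A)) := by
    refine mem_Rint.mpr (isIntegral_Lam_iff.mpr ⟨M.mem_S_iff_isIntegral.mp u.2, fun d hd => ?_⟩)
    rw [show (u : E) = cst E r⁻¹ * (M.incl {t} Y : E) by
      rw [hYu, ← mul_assoc, ← map_mul, inv_mul_cancel₀ hr', map_one, one_mul]]
    exact (isIntegral_algebraMap_of_mem (C_mem_Loc _ _)).mul
      (isIntegral_mono (Lam_le_Loc (T := {t}) hd) (mem_Rint.mp Y.2))
  have hYu' : Y = ⟨cst E r, algebraMap_mem_Rint (C_mem_Lam hrA _)⟩ * ⟨_, hu⟩ := Subtype.ext hYu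
  rw [hYu', map_mul, map_mul]
  rw [show valHom hc hP ⟨cst E r, algebraMap_mem_Rint (C_mem_Lam hrA _)⟩ = ⟨r, hrA⟩ from
    Subtype.ext (valAtP_eq_of_sub_mem P _ (by
      show cst E r - algebraMap L E r ∈ _
      rw [cst_eq_algebraMap, sub_self]; exact zero_mem _)),
    hr0, zero_mul]

end Field

end Fermat.Agent.DeligneSerre
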