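import Fermat.Agent.DeligneSerre.Connected
import Fermat.Agent.EichlerShimura.Covers
import Fermat.Agent.EichlerShimura.Flip
import Fermat.Agent.EichlerShimura.NormLift

/-!
# Connectedness from bounds on the ramification over the `j`-line
-/

set_option autoImplicit false
set_option linter.unusedSectionVars false

noncomputable section

open scoped Classical
open Polynomial IsLocalRing AlgebraicCurve

namespace Fermat.Agent.DeligneSerre

open Fermat.Agent.EichlerShimura Fermat.Agent.FF

variable {L : Type*} [Field L] [IsAlgClosed L] [CharZero L] {A : ValuationSubring L}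
  [IsAlgClosed (Kappa A)] {ι : Type*} [Fintype ι] [DecidableEq ι]
variable {E : Type*} [Field E] [Algebra (RatFunc L) E] [Algebra L E] [IsScalarTower L (RatFunc L) E]
  [FiniteDimensional (RatFunc L) E] [IsFunctionField L E]
variable {Eb : Type*} [CommRing Eb] [Algebra (RatFunc (Kappa A)) Eb] [Nontrivial Eb]

/-- A cover without branching over `t` lifts the idempotents at `t`. -/
theorem idemLiftAt_of_cover (M : Model A ι E Eb) (c : CoverData A) {t : Kappa A}
    (hU : ∀ d : A, residue A d ∈ c.pre {t} → UnramAt ι (c.gen.BC E) (d : L)) :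
    IdemLiftAt M t := by
  intro e he
  obtain ⟨Z, hZ⟩ := M.exists_pow_lift c (Set.finite_singleton t) (Set.singleton_nonempty t) hU
    (h := e) fun a _ => isIntegral_idempotent _ he
  refine ⟨Z, hZ.trans ?_⟩
  obtain ⟨m, hm⟩ : ∃ m, c.num.natDegree = m + 1 := ⟨c.num.natDegree - 1, by have := c.pos; omega⟩
  rw [hm, he.pow_succ_eq]

/-- Ramification bounded by `3`, `2` at the elliptic points, `1` elsewhere and tame data at the
cusps force the reduction to have no nontrivial idempotent. -/
theorem idem_eq_zero_or_one_of_ord (M : Model A ι E Eb) (harch : IsArchVal A) {x : E}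
    (hx : algebraMap (RatFunc L) E RatFunc.X = x) {N : ℕ} (hN : N ≠ 0)
    (h0 : ∀ P : Place L E, 0 < P.ord x → P.ord x ∣ 3)
    (h1728 : ∀ P : Place L E, 0 < P.ord (x - algebraMap L E 1728) →
      P.ord (x - algebraMap L E 1728) ∣ 2)
    (hgen : ∀ a : L, a ≠ 0 → a ≠ 1728 → ∀ P : Place L E, 0 < P.ord (x - algebraMap L E a) →
      P.ord (x - algebraMap L E a) ∣ 1)
    (hpole : ∀ P : Place L E, P.ord x < 0 → P.ord x ∣ (N : ℤ))
    {e : Eb} (he : IsIdempotentElem e) : e = 0 ∨ e = 1 := by
  have hx0 : x ≠ 0 := by rw [← hx, _root_.map_ne_zero]; exact RatFunc.X_ne_zero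
  obtain ⟨cf, hcf⟩ := exists_cover_finite (A := A) M.b hx h0 h1728 hgen
  refine idem_eq_zero_or_one M harch (fun t => idemLiftAt_of_cover M cf (hcf {t})) ?_ he
  let _ : Algebra L (Flipped E) := (inferInstance : Algebra L E)
  have : IsScalarTower L (RatFunc L) (Flipped E) := IsScalarTower.of_algebraMap_eq fun c => by
    show algebraMap L E c = algebraMap (RatFunc L) E (invX L (algebraMap L (RatFunc L) c))
    rw [RatFunc.algebraMap_eq_C, invX_apply, invXHom_C, ← RatFunc.algebraMap_eq_C,
      ← IsScalarTower.algebraMap_apply L (RatFunc L) E]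
  have : FiniteDimensional (RatFunc L) (Flipped E) := Module.Finite.of_basis (flipBasis M.b)
  have : IsFunctionField L (Flipped E) := ‹IsFunctionField L E›
  have : Nontrivial (Flipped Eb) := ‹Nontrivial Eb›
  have hx' : algebraMap (RatFunc L) (Flipped E) RatFunc.X = (flipRing E x⁻¹) := by
    rw [algebraMap_flipped, invX_apply, invXHom_X, map_inv₀, hx]
  obtain ⟨c, hc⟩ := exists_cover_cusp (A := A) M.flip.b hN hx'
    (fun P hP => by
      let P' : Place L E := P
      have hP' : 0 < P'.ord x⁻¹ := hP
      show P'.ord x⁻¹ ∣ _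
      rw [P'.ord_inv] at hP' ⊢
      exact (Int.neg_dvd).mpr (hpole P' (by omega)))
    (fun a ha ha0 P hP => by
      let P' : Place L E := P
      have hP' : 0 < P'.ord (x⁻¹ - algebraMap L E (a : L)) := hP
      show P'.ord (x⁻¹ - algebraMap L E (a : L)) ∣ 1
      have h1728' : ((a : L))⁻¹ ≠ 1728 := fun h => by
        have : (a * 1728 : A) = 1 := Subtype.ext (by
          show (a : L) * ((1728 : A) : L) = 1
          rw [show ((1728 : A) : L) = 1728 from map_ofNat A.subtype 1728, ← h, mul_inv_cancel₀ ha0])
        have := congrArg (residue A) this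
        rw [map_mul, ha, zero_mul, map_one] at this
        exact zero_ne_one this
      have hane : algebraMap L E (a : L) ≠ 0 := (_root_.map_ne_zero _).mpr ha0
      have hne : x⁻¹ - algebraMap L E (a : L) ≠ 0 := fun h => by
        rw [h, P'.ord_zero] at hP'; omega
      have hxo : P'.ord x⁻¹ = 0 := by
        obtain ⟨-, h3⟩ := ord_add_eq_left P' (f := algebraMap L E (a : L))
          (g := x⁻¹ - algebraMap L E (a : L)) hane (Or.inr (by rw [ord_algebraMap]; omega))
        rwa [add_sub_cancel, ord_algebraMap] at h3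
      have he' : x⁻¹ - algebraMap L E (a : L) =
          algebraMap L E (-(a : L)) * x⁻¹ * (x - algebraMap L E (a : L)⁻¹) := by
        rw [map_neg, map_inv₀]; field_simp; ring
      have hna : algebraMap L E (-(a : L)) ≠ 0 := (_root_.map_ne_zero _).mpr (neg_ne_zero.mpr ha0)
      have hne' : x - algebraMap L E (a : L)⁻¹ ≠ 0 := fun h => hne (by rw [he', h, mul_zero])
      rw [he', P'.ord_mul (mul_ne_zero hna (inv_ne_zero hx0)) hne', P'.ord_mul hna (inv_ne_zero hx0),
        ord_algebraMap, hxo, zero_add, zero_add] at hP' ⊢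
      exact hgen _ (inv_ne_zero ha0) h1728' P' hP')
  exact idemLiftAt_of_cover M.flip c hc

end Fermat.Agent.DeligneSerre
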