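import Fermat.Agent.EichlerShimura.Model
import Mathlib.RingTheory.AdjoinRoot
import Mathlib.RingTheory.AlgebraTower
import Mathlib.FieldTheory.PrimitiveElement
import Mathlib.FieldTheory.Separable
import Mathlib.LinearAlgebra.LinearIndependent.Basic

/-!
# Adjoining a root of a polynomial with separable reduction to a model
-/

set_option autoImplicit false
set_option linter.unusedSectionVars false

noncomputable section

open scoped Classical
open Polynomial IsLocalRing

namespace Fermat.Agent.DeligneSerre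

open Fermat.Agent.EichlerShimura

section Discr

variable {K : Type*} [Field K] {B : Type*} [CommRing B] [Algebra K B] {Ω : Type*} [Field Ω]
  [Algebra K Ω] {κ : Type*} [Fintype κ]

/-- As many embeddings as the rank force a nonzero discriminant. -/
theorem discr_ne_zero_of_algHoms [DecidableEq κ] (b : Module.Basis κ K B) (σ : κ → (B →ₐ[K] Ω))
    (hσ : Function.Injective σ) : Algebra.discr K b ≠ 0 := by
  let P : Matrix κ κ Ω := fun s i => σ s (b i)
  have hP : IsUnit P := by
    rw [← Matrix.linearIndependent_rows_iff_isUnit, Fintype.linearIndependent_iff]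
    intro g hg
    have hli : LinearIndependent Ω (fun s : κ => ((σ s : B →* Ω) : B → Ω)) :=
      (linearIndependent_monoidHom B Ω).comp (fun s : κ => (σ s : B →* Ω)) fun s s' h =>
        hσ (AlgHom.ext fun x => DFunLike.congr_fun h x)
    refine Fintype.linearIndependent_iff.mp hli g ?_
    have hb : ∀ i, ∑ s, g s * σ s (b i) = 0 := fun i => by
      have := congrFun hg i
      simpa [P, Finset.sum_apply, Matrix.row] using this
    funext x
    simp only [Finset.sum_apply, Pi.smul_apply, smul_eq_mul, Pi.zero_apply, MonoidHom.coe_coe]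
    conv_lhs => rw [← b.sum_repr x]
    simp only [map_sum, map_smul, Finset.mul_sum]
    rw [Finset.sum_comm]
    refine Finset.sum_eq_zero fun i _ => ?_
    simp only [mul_smul_comm, ← Finset.smul_sum, hb i, smul_zero]
  have hdet : IsUnit P.det := (Matrix.isUnit_iff_isUnit_det P).mp hP
  have htr : ∀ x : B, algebraMap K Ω (Algebra.trace K B x) = ∑ s, σ s x := by
    intro x
    let D : Matrix κ κ Ω := Matrix.diagonal fun s => σ s x
    have hPL : P * (Algebra.leftMulMatrix b x).map (algebraMap K Ω) = D * P := by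
      ext s j
      rw [Matrix.mul_apply, Matrix.diagonal_mul]
      calc ∑ i, P s i * algebraMap K Ω (Algebra.leftMulMatrix b x i j)
          = σ s (∑ i, (b.repr (x * b j) i) • b i) := by
            rw [map_sum]
            refine Finset.sum_congr rfl fun i _ => ?_
            rw [map_smul, Algebra.smul_def, mul_comm, Algebra.leftMulMatrix_eq_repr_mul]
        _ = _ := by rw [b.sum_repr, map_mul]
    have h2 : (Algebra.leftMulMatrix b x).map (algebraMap K Ω) = P⁻¹ * (D * P) := by
      rw [← hPL, ← Matrix.mul_assoc, Matrix.nonsing_inv_mul _ hdet, Matrix.one_mul]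
    rw [Algebra.trace_eq_matrix_trace b]
    calc algebraMap K Ω (Algebra.leftMulMatrix b x).trace
        = ((Algebra.leftMulMatrix b x).map (algebraMap K Ω)).trace :=
          AddMonoidHom.map_trace (algebraMap K Ω).toAddMonoidHom _
      _ = _ := by
          rw [h2, Matrix.trace_mul_comm, Matrix.mul_assoc, Matrix.mul_nonsing_inv _ hdet,
            Matrix.mul_one, Matrix.trace_diagonal]
  intro h
  have h1 : (Algebra.traceMatrix K b).map (algebraMap K Ω) = P.transpose * P := by
    ext i j
    rw [Matrix.map_apply, Algebra.traceMatrix_apply, Algebra.traceForm_apply, htr, Matrix.mul_apply]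
    exact Finset.sum_congr rfl fun s _ => map_mul (σ s) _ _
  have h2 := congrArg Matrix.det h1
  rw [← RingHom.mapMatrix_apply, ← RingHom.map_det, ← Algebra.discr_def, h, map_zero,
    Matrix.det_mul, Matrix.det_transpose] at h2
  exact hdet.ne_zero (mul_self_eq_zero.mp h2.symm)

/-- The discriminant of `Eb[X]/Φ` over the base field, for separable data. -/
theorem discr_adjoinRoot_ne_zero {F : Type*} [Field F] [Algebra K F] [Algebra.IsSeparable K F]
    {ι : Type*} [Fintype ι] (bF : Module.Basis ι K F) {P : F[X]} (hP : P.Monic) (hsep : P.Separable)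
    {n : ℕ} (b1 : Module.Basis (Fin n) F (AdjoinRoot P)) (hn : P.natDegree = n) :
    ∀ [DecidableEq (ι × Fin n)], Algebra.discr K (bF.smulTower b1) ≠ 0 := by
  intro _
  have : FiniteDimensional K F := Module.Finite.of_basis bF
  let Ω := AlgebraicClosure K
  have hroots : ∀ τ : F →ₐ[K] Ω, ((P.map τ.toRingHom).roots.toFinset).card = n := by
    intro τ
    rw [Multiset.toFinset_card_of_nodup (nodup_roots (hsep.map (f := τ.toRingHom))),
      ← (IsAlgClosed.splits (P.map τ.toRingHom)).natDegree_eq_card_roots,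
      hP.natDegree_map, hn]
  let ρ : (F →ₐ[K] Ω) → Fin n → Ω := fun τ i =>
    ((P.map τ.toRingHom).roots.toFinset.equivFinOfCardEq (hroots τ)).symm i
  have hρ : ∀ (τ : F →ₐ[K] Ω) i, P.eval₂ (τ : F →+* Ω) (ρ τ i) = 0 := fun τ i => by
    have h := Multiset.mem_toFinset.mp
      (((P.map τ.toRingHom).roots.toFinset.equivFinOfCardEq (hroots τ)).symm i).2
    have h2 := (mem_roots'.mp h).2
    rwa [IsRoot.def, eval_map] at h2
  have hcard : Fintype.card (F →ₐ[K] Ω) = Fintype.card ι := by
    rw [AlgHom.card, Module.finrank_eq_card_basis bF]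
  let e : ι ≃ (F →ₐ[K] Ω) := Fintype.equivOfCardEq hcard.symm
  refine discr_ne_zero_of_algHoms (bF.smulTower b1)
    (fun s => AdjoinRoot.liftAlgHom P (e s.1) (ρ (e s.1) s.2) (hρ _ _)) ?_
  rintro ⟨i, j⟩ ⟨i', j'⟩ h
  have h1 : e i = e i' := AlgHom.ext fun r => by
    have := DFunLike.congr_fun h (AdjoinRoot.of P r)
    simpa using this
  obtain rfl := e.injective h1
  have h2 := DFunLike.congr_fun h (AdjoinRoot.root P)
  simp only [AdjoinRoot.liftAlgHom_root] at h2
  exact Prod.ext rfl (Equiv.injective _ (Subtype.ext h2))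

end Discr

variable {L : Type*} [Field L] {A : ValuationSubring L} {ι : Type*} [Fintype ι]
  {E : Type*} [CommRing E] [Algebra (RatFunc L) E]
  {Eb : Type*} [Field Eb] [Algebra (RatFunc (Kappa A)) Eb]
  {E1 : Type*} [CommRing E1] [Algebra E E1] [Algebra (RatFunc L) E1]
  [IsScalarTower (RatFunc L) E E1]

section Adjoin

variable (M : Model A ι E Eb) (Φ : M.S[X]) (U : E1) {n : ℕ} (b1 : Module.Basis (Fin n) E E1)

/-- Evaluation of integral polynomials at `U`. -/
def evU : M.S[X] →+* E1 := eval₂RingHom ((algebraMap E E1).comp M.S.subtype) U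

/-- Reduction of integral polynomials modulo `Φ̄`. -/
def evB : M.S[X] →+* AdjoinRoot (Φ.map M.red) :=
  (AdjoinRoot.mk (Φ.map M.red)).comp (mapRingHom M.red)

variable {M Φ U b1}

theorem repr_evU (hm : Φ.Monic) (hn : Φ.natDegree = n) (hb1 : ∀ i : Fin n, b1 i = U ^ (i : ℕ))
    (hroot : evU M U Φ = 0) (P : M.S[X]) (i : ι) (j : Fin n) :
    (M.b.smulTower b1).repr (evU M U P) (i, j) = (M.co ((P %ₘ Φ).coeff j) i : RatFunc L) := by
  have h : evU M U P = ∑ k : Fin n, ((P %ₘ Φ).coeff k : E) • b1 k := by
    conv_lhs => rw [← modByMonic_add_div P Φ, map_add, map_mul, hroot, zero_mul, add_zero]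
    rcases Nat.eq_zero_or_pos n with rfl | hpos
    · have : P %ₘ Φ = 0 := by
        rw [(hm.natDegree_eq_zero.mp hn), modByMonic_one]
      simp [this]
    · have hdeg : (P %ₘ Φ).natDegree < n :=
        hn ▸ natDegree_modByMonic_lt P hm (fun h1 => by rw [h1, natDegree_one] at hn; omega)
      rw [evU, coe_eval₂RingHom, eval₂_eq_sum_range' _ hdeg, Finset.sum_range]
      refine Finset.sum_congr rfl fun k _ => ?_
      rw [hb1, Algebra.smul_def]
      rfl
  rw [Module.Basis.smulTower_repr, h, b1.repr_sum_self]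
  rfl

/-- The power basis of the reduction. -/
def basisAdjoinBar (hm : Φ.Monic) (hn : Φ.natDegree = n) :
    Module.Basis (Fin n) Eb (AdjoinRoot (Φ.map M.red)) :=
  (AdjoinRoot.powerBasisAux' (hm.map M.red)).reindex
    (finCongr (by rw [hm.natDegree_map, hn]))

theorem repr_evB (hm : Φ.Monic) (hn : Φ.natDegree = n) (P : M.S[X]) (i : ι) (j : Fin n) :
    (M.bb.smulTower (basisAdjoinBar hm hn)).repr (evB M Φ P) (i, j)
      = redG A (M.co ((P %ₘ Φ).coeff j) i) := by
  rw [Module.Basis.smulTower_repr, basisAdjoinBar, Module.Basis.repr_reindex_apply,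
    AdjoinRoot.powerBasisAux'_repr_apply_to_fun, evB, RingHom.comp_apply,
    AdjoinRoot.modByMonicHom_mk, coe_mapRingHom, ← map_modByMonic _ hm, coeff_map, Model.repr_red]
  simp

theorem monomial_evU (hb1 : ∀ i : Fin n, b1 i = U ^ (i : ℕ)) (i : ι) (j : Fin n) :
    (M.b.smulTower b1) (i, j) = evU M U (monomial (j : ℕ) ⟨M.b i, M.basis_mem i⟩) := by
  rw [Module.Basis.smulTower_apply, hb1, evU, coe_eval₂RingHom, eval₂_monomial,
    ← algebraMap_smul E (M.b i) (U ^ (j : ℕ)), Algebra.smul_def]
  rfl

theorem monomial_evB (hm : Φ.Monic) (hn : Φ.natDegree = n) (i : ι) (j : Fin n) :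
    (M.bb.smulTower (basisAdjoinBar hm hn)) (i, j)
      = evB M Φ (monomial (j : ℕ) ⟨M.b i, M.basis_mem i⟩) := by
  refine (M.bb.smulTower (basisAdjoinBar hm hn)).ext_elem fun ⟨i', j'⟩ => ?_
  rcases Nat.eq_zero_or_pos n with rfl | hpos
  · exact j.elim0
  have : Nontrivial M.S := M.red.domain_nontrivial
  rw [Module.Basis.repr_self, repr_evB, (modByMonic_eq_self_iff hm).mpr, coeff_monomial,
    Finsupp.single_apply]
  · by_cases hj : (j : ℕ) = (j' : ℕ)
    · obtain rfl := Fin.ext hj
      rw [if_pos rfl, ← M.repr_red, M.red_basis, Module.Basis.repr_self, Finsupp.single_apply]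
      simp
    · rw [if_neg hj, if_neg fun h => hj (congrArg Fin.val (congrArg Prod.snd h)), ← M.repr_red,
        map_zero, map_zero, Finsupp.zero_apply]
  · refine lt_of_le_of_lt (degree_monomial_le _ _) ?_
    rw [degree_eq_natDegree hm.ne_zero, hn]
    exact_mod_cast j.2

/-- The model of the extension generated by a root of `Φ`. -/
def adjoinModel [Algebra.IsSeparable (RatFunc (Kappa A)) Eb]
    (hb1 : ∀ i : Fin n, b1 i = U ^ (i : ℕ)) (hm : Φ.Monic) (hn : Φ.natDegree = n)
    (hroot : evU M U Φ = 0) (hsep : (Φ.map M.red).Separable) :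
    Model A (ι × Fin n) E1 (AdjoinRoot (Φ.map M.red)) where
  b := M.b.smulTower b1
  bb := M.bb.smulTower (basisAdjoinBar hm hn)
  one_int := fun ⟨i, j⟩ => by
    rw [← map_one (evU M U), repr_evU hm hn hb1 hroot]; exact SetLike.coe_mem _
  one_red := fun ⟨i, j⟩ => by
    refine Eq.trans ?_ ((repr_evB hm hn 1 i j).symm.trans (by rw [map_one]))
    exact congrArg (redG A) (Subtype.ext
      ((by rw [map_one (evU M U)] : (M.b.smulTower b1).repr 1 (i, j)
        = (M.b.smulTower b1).repr (evU M U 1) (i, j)).trans (repr_evU hm hn hb1 hroot 1 i j)))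
  mul_int := fun ⟨i, j⟩ ⟨i', j'⟩ ⟨l, l'⟩ => by
    rw [monomial_evU hb1, monomial_evU hb1, ← map_mul, repr_evU hm hn hb1 hroot]
    exact SetLike.coe_mem _
  mul_red := fun ⟨i, j⟩ ⟨i', j'⟩ ⟨l, l'⟩ => by
    have hL : (M.b.smulTower b1).repr
          ((M.b.smulTower b1) (i, j) * (M.b.smulTower b1) (i', j')) (l, l')
        = (M.b.smulTower b1).repr (evU M U (monomial (j : ℕ) ⟨M.b i, M.basis_mem i⟩
          * monomial (j' : ℕ) ⟨M.b i', M.basis_mem i'⟩)) (l, l') := by
      rw [map_mul (evU M U), ← monomial_evU hb1, ← monomial_evU hb1]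
    have hR : (M.bb.smulTower (basisAdjoinBar hm hn)).repr
          ((M.bb.smulTower (basisAdjoinBar hm hn)) (i, j)
            * (M.bb.smulTower (basisAdjoinBar hm hn)) (i', j')) (l, l')
        = (M.bb.smulTower (basisAdjoinBar hm hn)).repr
          (evB M Φ (monomial (j : ℕ) ⟨M.b i, M.basis_mem i⟩
            * monomial (j' : ℕ) ⟨M.b i', M.basis_mem i'⟩)) (l, l') := by
      rw [map_mul (evB M Φ), ← monomial_evB hm hn, ← monomial_evB hm hn]
    exact (congrArg (redG A) (Subtype.ext (hL.trans (repr_evU hm hn hb1 hroot _ l l')))).trans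
      ((repr_evB hm hn _ l l').symm.trans hR.symm)
  disc_ne := fun {inst} => by
    exact discr_adjoinRoot_ne_zero M.bb (hm.map M.red) hsep (basisAdjoinBar hm hn)
      (by rw [hm.natDegree_map, hn])

end Adjoin

end Fermat.Agent.DeligneSerre
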