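import Fermat.Agent.DeligneSerre.UnramRoot
import Fermat.Agent.DeligneSerre.ModelAdjoin
import Fermat.Agent.DeligneSerre.ArchVal

/-!
# Injectivity of reduction on the Kummer group

A function with divisor divisible by `m` which reduces to one is an `m`-th power: otherwise the
unramified cover it defines would have disconnected reduction.
-/

set_option autoImplicit false
set_option linter.unusedSectionVars false

noncomputable section

open scoped Classical
open Polynomial IsLocalRing AlgebraicCurve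

namespace Fermat.Agent.DeligneSerre

open Fermat.Agent.EichlerShimura Fermat.Agent.FF

variable {L : Type*} [Field L] [IsAlgClosed L] [CharZero L] {A : ValuationSubring L}
  [IsAlgClosed (Kappa A)] {ι : Type*} [Fintype ι] [DecidableEq ι]
  {E : Type*} [Field E] [Algebra (RatFunc L) E] [Algebra L E] [IsScalarTower L (RatFunc L) E]
  [FiniteDimensional (RatFunc L) E] [IsFunctionField L E]
  {Eb : Type*} [Field Eb] [Algebra (RatFunc (Kappa A)) Eb]
  [Algebra.IsSeparable (RatFunc (Kappa A)) Eb]

theorem exists_pow_eq_of_red_eq_one (M : Model A ι E Eb) (harch : IsArchVal A) {x : E}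
    (hx : algebraMap (RatFunc L) E RatFunc.X = x) {N : ℕ} (hN : N ≠ 0)
    (h0 : ∀ P : Place L E, 0 < P.ord x → P.ord x ∣ 3)
    (h1728 : ∀ P : Place L E, 0 < P.ord (x - algebraMap L E 1728) →
      P.ord (x - algebraMap L E 1728) ∣ 2)
    (hgen : ∀ a : L, a ≠ 0 → a ≠ 1728 → ∀ P : Place L E, 0 < P.ord (x - algebraMap L E a) →
      P.ord (x - algebraMap L E a) ∣ 1)
    (hpole : ∀ P : Place L E, P.ord x < 0 → P.ord x ∣ (N : ℤ))
    {m : ℕ} (hm : m.Prime) (hmA : (m : Kappa A) ≠ 0) (f : M.S) (hf1 : M.red f = 1)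
    (hdiv : ∀ P : Place L E, (m : ℤ) ∣ P.ord (f : E)) : ∃ z : E, z ^ m = (f : E) := by
  by_contra hno
  push Not at hno
  have hirr : Irreducible (X ^ m - C (f : E) : E[X]) := X_pow_sub_C_irreducible_of_prime hm hno
  have := Fact.mk hirr
  have hf0 : (f : E) ≠ 0 := fun h => hno 0 (by rw [h, zero_pow hm.ne_zero])
  have hmE : (X ^ m - C (f : E) : E[X]).Monic := monic_X_pow_sub_C _ hm.ne_zero
  let Φ : M.S[X] := X ^ m - C f
  have hΦ : Φ.Monic := monic_X_pow_sub_C f hm.ne_zero
  have : Nontrivial M.S := M.red.domain_nontrivial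
  have hΦn : Φ.natDegree = m := natDegree_X_pow_sub_C
  let E1 := AdjoinRoot (X ^ m - C (f : E) : E[X])
  let U : E1 := AdjoinRoot.root _
  let b1 : Module.Basis (Fin m) E E1 := (AdjoinRoot.powerBasis' hmE).basis.reindex
    (finCongr (by rw [AdjoinRoot.powerBasis'_dim, natDegree_X_pow_sub_C]))
  have hb1 : ∀ i : Fin m, b1 i = U ^ (i : ℕ) := fun i => by
    simp only [b1, Module.Basis.reindex_apply, PowerBasis.basis_eq_pow, AdjoinRoot.powerBasis'_gen]
    rfl
  have hroot : evU M U Φ = 0 := by
    have h := AdjoinRoot.eval₂_root (X ^ m - C (f : E) : E[X])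
    rw [eval₂_sub, eval₂_X_pow, eval₂_C] at h
    simp only [evU, Φ, coe_eval₂RingHom, eval₂_sub, eval₂_X_pow, eval₂_C, RingHom.comp_apply]
    exact h
  have hΦb : Φ.map M.red = X ^ m - 1 := by
    simp only [Φ, Polynomial.map_sub, Polynomial.map_pow, map_X, map_C, hf1, map_one]
  have hmEb : (m : Eb) ≠ 0 := by
    have h := (map_natCast ((algebraMap (RatFunc (Kappa A)) Eb).comp RatFunc.C) m)
    rw [← h]
    exact (_root_.map_ne_zero _).mpr hmA
  have hsep : (Φ.map M.red).Separable := by
    rw [hΦb, ← C_1]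
    exact separable_X_pow_sub_C 1 hmEb one_ne_zero
  let M1 := adjoinModel (M := M) (Φ := Φ) (U := U) (b1 := b1) hb1 hΦ hΦn hroot hsep
  have : Module.Finite E E1 := hmE.finite_adjoinRoot
  have : FiniteDimensional (RatFunc L) E1 := Module.Finite.trans E E1
  have : IsFunctionField L E1 := isFunctionField_extension L E E1
  have hram : ∀ P : Place L E1, P.ramificationIndex E = 1 := fun P =>
    ramificationIndex_adjoinRoot hm (by exact_mod_cast hm.ne_zero) hf0 hdiv P
  have hord : ∀ (P : Place L E1) (y : E),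
      P.ord (algebraMap E E1 y) = (P.restrict E).ord y := fun P y => by
    rw [P.ord_restrict, hram, Nat.cast_one, one_mul]
  have hdegb : (Φ.map M.red).natDegree = m := by rw [hΦ.natDegree_map, hΦn]
  have : Nontrivial (AdjoinRoot (Φ.map M.red)) := AdjoinRoot.nontrivial _ (fun h => by
    have := natDegree_eq_of_degree_eq_some h
    rw [hdegb] at this
    exact hm.ne_zero this)
  have key : ∀ (a : L) (P : Place L E1) (n : ℤ),
      (∀ Q : Place L E, 0 < Q.ord (x - algebraMap L E a) → Q.ord (x - algebraMap L E a) ∣ n) →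
      0 < P.ord (algebraMap E E1 x - algebraMap L E1 a) →
      P.ord (algebraMap E E1 x - algebraMap L E1 a) ∣ n := fun a P n h hP => by
    rw [IsScalarTower.algebraMap_apply L E E1, ← map_sub, hord] at hP ⊢
    exact h _ hP
  have hconn : ∀ e : AdjoinRoot (Φ.map M.red), IsIdempotentElem e → e = 0 ∨ e = 1 := fun e he =>
    idem_eq_zero_or_one_of_ord M1 harch
      (x := algebraMap E E1 x)
      (by rw [IsScalarTower.algebraMap_apply (RatFunc L) E E1, hx]) hN
      (fun P hP => by
        simpa using key 0 P 3 (fun Q hQ => by simpa using h0 Q (by simpa using hQ)) (by simpa using hP))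
      (fun P hP => key 1728 P 2 h1728 hP)
      (fun a ha ha' P hP => key a P 1 (hgen a ha ha') hP)
      (fun P hP => by
        rw [hord] at hP ⊢
        exact hpole _ hP) he
  -- the idempotent of the root one
  obtain ⟨q, hq⟩ : (X - C (1 : Eb)) ∣ Φ.map M.red :=
    dvd_iff_isRoot.mpr (by simp [hΦb, IsRoot])
  have hq1 : q.eval 1 = (m : Eb) := by
    have h1 := congrArg (fun p => (derivative p).eval 1) hq
    simp only [hΦb, derivative_sub, derivative_X_pow, derivative_one, derivative_mul, derivative_X,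
      derivative_C, eval_add, eval_mul, eval_sub, eval_X, eval_C, eval_pow, sub_zero,
      one_pow, mul_one, one_mul, sub_self, zero_mul, add_zero, eval_natCast, map_natCast] at h1
    exact h1.symm
  obtain ⟨q', hq'⟩ : (X - C (1 : Eb)) ∣ q - C (m : Eb) := dvd_iff_isRoot.mpr (by simp [hq1, IsRoot])
  set mk := AdjoinRoot.mk (Φ.map M.red)
  set e := mk (C (m : Eb)⁻¹ * q) with he
  have hidem : IsIdempotentElem e := by
    show e * e = e
    rw [he, ← map_mul, AdjoinRoot.mk_eq_mk]
    refine ⟨C (m : Eb)⁻¹ * C (m : Eb)⁻¹ * q', ?_⟩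
    have hC : C (m : Eb)⁻¹ * C (m : Eb) = 1 := by rw [← C_mul, inv_mul_cancel₀ hmEb, C_1]
    rw [hq]
    linear_combination (C (m : Eb)⁻¹ * C (m : Eb)⁻¹ * q) * hq'
      + (C (m : Eb)⁻¹ * q) * hC
  rcases hconn e hidem with h | h
  · have hev : (Φ.map M.red).eval₂ (RingHom.id Eb) 1 = 0 := by simp [hΦb]
    have := congrArg (AdjoinRoot.lift (RingHom.id Eb) 1 hev) h
    rw [he, AdjoinRoot.lift_mk, map_zero, eval₂_id, eval_mul, eval_C, hq1,
      inv_mul_cancel₀ hmEb] at this
    exact one_ne_zero this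
  · have h2 : mk (X - C (1 : Eb)) = 0 := by
      have : mk (X - C (1 : Eb)) * e = mk (X - C (1 : Eb)) := by rw [h, mul_one]
      rw [← this, he, ← map_mul, AdjoinRoot.mk_eq_zero]
      exact ⟨C (m : Eb)⁻¹, by rw [hq]; ring⟩
    rw [AdjoinRoot.mk_eq_zero] at h2
    have := natDegree_le_of_dvd h2 (X_sub_C_ne_zero 1)
    rw [hdegb, natDegree_X_sub_C] at this
    exact absurd this (not_le.mpr hm.one_lt)

end Fermat.Agent.DeligneSerre
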