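import Fermat.Agent.RedTorsion.SeriesBasis
import Fermat.Agent.EichlerShimura.Frac
import Fermat.Agent.EichlerShimura.HeckeNorm

/-!
# Gauss integral fractions of series and their reduction

`G A` is the ring of fractions of series with coefficients in `A` with primitive denominator,
`gRed A` its reduction. A model whose basis consists of elements of `G A` is compatible with it.
-/

set_option autoImplicit false
set_option linter.unusedSectionVars false

noncomputable section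

open Polynomial IsLocalRing ModularCurve

namespace Fermat.Agent.DeligneSerre.SeriesG

open Fermat.Agent.RedTorsion Fermat.Agent.EichlerShimura Fermat.Agent.FF

variable {L : Type*} [Field L] (A : ValuationSubring L)

local notation "κ" => ResidueField A

/-- Series with nonzero reduction. -/
def primSer : Submonoid (serInt A) where
  carrier := {d | serRed A d ≠ 0}
  one_mem' := by simp
  mul_mem' {a b} ha hb := by
    simp only [Set.mem_ofPred_eq] at ha hb ⊢
    rw [map_mul]; exact mul_ne_zero ha hb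

/-- Fractions of integral series with primitive denominator. -/
def G : Subring (LaurentSeries L) := fracPart (serInt A).subtype (primSer A)

/-- The reduction of a fraction. -/
def gRed : G A →+* LaurentSeries κ :=
  fracLift (ι := (serInt A).subtype) (Q := primSer A) Subtype.val_injective (serRed A)
    fun _ hd => hd

variable {A}

theorem mem_G {f : LaurentSeries L} :
    f ∈ G A ↔ ∃ p d : serInt A, serRed A d ≠ 0 ∧ f * (d : LaurentSeries L) = p :=
  ⟨fun ⟨p, d, hd, h⟩ => ⟨p, d, hd, h⟩, fun ⟨p, d, hd, h⟩ => ⟨p, d, hd, h⟩⟩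

theorem gRed_eq (f : G A) {p d : serInt A} (hd : serRed A d ≠ 0)
    (h : (f : LaurentSeries L) * d = p) : gRed A f = serRed A p / serRed A d :=
  fracLift_eq (ι := (serInt A).subtype) (Q := primSer A) Subtype.val_injective (serRed A)
    (fun _ hd => hd) f hd h

theorem serInt_le_G : serInt A ≤ G A := fun f hf =>
  mem_G.2 ⟨⟨f, hf⟩, 1, by simp, by simp⟩

theorem gRed_serInt (p : serInt A) (h : (p : LaurentSeries L) ∈ G A) :
    gRed A ⟨p, h⟩ = serRed A p := by
  rw [gRed_eq ⟨_, h⟩ (p := p) (d := 1) (by simp) (by simp), map_one, _root_.div_one]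

/-- Equal series have equal reductions. -/
theorem gRed_congr {f g : LaurentSeries L} (e : f = g) (hf : f ∈ G A) :
    gRed A ⟨g, e ▸ hf⟩ = gRed A ⟨f, hf⟩ := by
  subst e; rfl

theorem algebraMap_mem_G {c : L} (hc : c ∈ A) : algebraMap L (LaurentSeries L) c ∈ G A :=
  serInt_le_G (algebraMap_mem_serInt hc)

theorem gRed_algebraMap {c : L} (hc : c ∈ A) :
    gRed A ⟨_, algebraMap_mem_G hc⟩ =
      algebraMap κ (LaurentSeries κ) (residue A ⟨c, hc⟩) :=
  (gRed_serInt ⟨_, algebraMap_mem_serInt hc⟩ _).trans (serRed_algebraMap hc)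

/-- A pair of compatible homomorphisms preserves the fractions and commutes with reduction. -/
theorem transform (φ : LaurentSeries L →+* LaurentSeries L)
    (ψ : LaurentSeries κ →+* LaurentSeries κ)
    (h : ∀ y : serInt A, ∃ z : serInt A, (z : LaurentSeries L) = φ y ∧
      serRed A z = ψ (serRed A y))
    {f : LaurentSeries L} (hf : f ∈ G A) :
    ∃ hm : φ f ∈ G A, gRed A ⟨φ f, hm⟩ = ψ (gRed A ⟨f, hf⟩) := by
  obtain ⟨p, d, hd, he⟩ := mem_G.1 hf
  obtain ⟨p', hp', hp''⟩ := h p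
  obtain ⟨d', hd', hd''⟩ := h d
  have hd0 : serRed A d' ≠ 0 := by rw [hd'']; exact (_root_.map_ne_zero ψ).2 hd
  have e : φ f * (d' : LaurentSeries L) = p' := by rw [hd', hp', ← map_mul, he]
  refine ⟨mem_G.2 ⟨p', d', hd0, e⟩, ?_⟩
  rw [gRed_eq ⟨φ f, _⟩ hd0 e, gRed_eq ⟨f, hf⟩ hd he, map_div₀, hp'', hd'']

theorem exists_serInt_qExpand (n : ℕ) [NeZero n] (y : serInt A) :
    ∃ z : serInt A, (z : LaurentSeries L) = qExpand L n y ∧
      serRed A z = qExpand κ n (serRed A y) := by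
  obtain ⟨y, y₀, rfl⟩ := y
  refine ⟨⟨coeffMap A.subtype (qExpand A n y₀), ⟨_, rfl⟩⟩, ?_, ?_⟩
  · exact coeffMap_qExpand _ _ _
  · exact (serRed_coeffMap _ _).trans ((coeffMap_qExpand (residue A) n y₀).trans
      (congrArg _ (serRed_coeffMap _ _).symm))

theorem qExpand_mem (n : ℕ) [NeZero n] {f : LaurentSeries L} (hf : f ∈ G A) :
    ∃ hm : qExpand L n f ∈ G A, gRed A ⟨_, hm⟩ = qExpand κ n (gRed A ⟨f, hf⟩) :=
  transform _ _ (exists_serInt_qExpand n) hf

theorem coeffMap_mem (σ : L →+* L) (τ : κ →+* κ) (hσ : ∀ a : A, σ a ∈ A)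
    (hτ : ∀ a : A, residue A ⟨σ a, hσ a⟩ = τ (residue A a)) {f : LaurentSeries L}
    (hf : f ∈ G A) :
    ∃ hm : coeffMap σ f ∈ G A, gRed A ⟨_, hm⟩ = coeffMap τ (gRed A ⟨f, hf⟩) := by
  refine transform _ _ (fun y => ?_) hf
  have hy : coeffMap σ (y : LaurentSeries L) ∈ serInt A := mem_serInt.2 fun k => by
    rw [coeffMap_coeff]; exact hσ ⟨_, mem_serInt.1 y.2 k⟩
  refine ⟨⟨_, hy⟩, rfl, ?_⟩
  ext k
  refine (coeff_serRed _ k).trans (Eq.trans ?_ (coeffMap_coeff τ _ k).symm)
  rw [coeff_serRed, ← hτ]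
  exact congrArg (residue A) (Subtype.ext (coeffMap_coeff σ _ k))

theorem inv_mem {f : LaurentSeries L} (hf : f ∈ G A) (h0 : gRed A ⟨f, hf⟩ ≠ 0) :
    ∃ hm : f⁻¹ ∈ G A, gRed A ⟨f⁻¹, hm⟩ = (gRed A ⟨f, hf⟩)⁻¹ := by
  obtain ⟨p, d, hd, he⟩ := mem_G.1 hf
  have hg := gRed_eq ⟨f, hf⟩ hd he
  have hp : serRed A p ≠ 0 := fun h => h0 (by rw [hg, h, zero_div])
  have hf0 : f ≠ 0 := fun h => h0 (by
    rw [show (⟨f, hf⟩ : G A) = 0 from Subtype.ext h, map_zero])
  have e : f⁻¹ * (p : LaurentSeries L) = d := by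
    rw [← he, inv_mul_cancel_left₀ hf0]
  refine ⟨mem_G.2 ⟨d, p, hp, e⟩, ?_⟩
  rw [gRed_eq ⟨f⁻¹, _⟩ hp e, hg, inv_div]

/-- A scalar multiple of a primitive fraction is integral only for an integral scalar. -/
theorem scalar_mem {γ : L} {f : LaurentSeries L} (hf : f ∈ G A) (h0 : gRed A ⟨f, hf⟩ ≠ 0)
    (h : algebraMap L (LaurentSeries L) γ * f ∈ G A) : γ ∈ A := by
  by_contra hγ
  have hγ0 : γ ≠ 0 := fun e => hγ (e ▸ A.zero_mem)
  have hi : γ⁻¹ ∈ A := (A.mem_or_inv_mem γ).resolve_left hγ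
  have hr : residue A ⟨γ⁻¹, hi⟩ = 0 :=
    (residue_eq_zero_iff_inv (inv_ne_zero hγ0)).2 (by simpa using hγ)
  refine h0 ?_
  have e : (⟨f, hf⟩ : G A) = ⟨_, algebraMap_mem_G hi⟩ * ⟨_, h⟩ := Subtype.ext (by
    show f = _ * (_ * f)
    rw [← mul_assoc, ← map_mul, inv_mul_cancel₀ hγ0, map_one, one_mul])
  rw [e, map_mul, gRed_algebraMap hi, hr, map_zero, zero_mul]

section Twist

/-- Twisting by a `p`-th root of unity does not change reductions in characteristic `p`. -/
theorem twist_mem {A : ValuationSubring (AlgebraicClosure ℚ)} {p : ℕ} [NeZero p] (hp : p.Prime)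
    [CharP (ResidueField A) p] (u : (AlgebraicClosure ℚ)ˣ) (hu : u ^ p = 1)
    {f : LaurentSeries (AlgebraicClosure ℚ)} (hf : f ∈ G A) :
    ∃ hm : ModFun.twist u f ∈ G A, gRed A ⟨_, hm⟩ = gRed A ⟨f, hf⟩ := by
  refine transform _ (RingHom.id _) (fun y => ?_) hf
  obtain ⟨y, y₀, rfl⟩ := y
  obtain ⟨z, hz, hzr⟩ := exists_twist_lift (residue A) hp u hu y₀
  refine ⟨⟨coeffMap A.subtype z, ⟨_, rfl⟩⟩, hz, ?_⟩
  exact (serRed_coeffMap _ _).trans (hzr.trans (serRed_coeffMap _ _).symm)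

end Twist

section Model

variable {ι : Type*} [Fintype ι] {E : Type*} [CommRing E] [Algebra (RatFunc L) E]
  {Eb : Type*} [CommRing Eb] [Algebra (RatFunc (Kappa A)) Eb]
  (M : Model A ι E Eb) (se : E →+* LaurentSeries L) (sb : Eb →+* LaurentSeries (Kappa A))

/-- The hypotheses making a model compatible with series. -/
structure Compat : Prop where
  hse : ∀ P : L[X],
    se (algebraMap (RatFunc L) E (algebraMap L[X] (RatFunc L) P)) = aeval (jqModC L) P
  hsb : ∀ P : (Kappa A)[X],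
    sb (algebraMap (RatFunc (Kappa A)) Eb (algebraMap (Kappa A)[X] (RatFunc (Kappa A)) P)) =
      aeval (jqModC (Kappa A)) P
  hbasis : ∀ i, ∃ h : se (M.b i) ∈ G A, gRed A ⟨_, h⟩ = sb (M.bb i)

variable {M se sb}

theorem Compat.gauss (hc : Compat M se sb) (f : Og A) :
    ∃ h : se (algebraMap (RatFunc L) E f) ∈ G A,
      gRed A ⟨_, h⟩ = sb (algebraMap (RatFunc (Kappa A)) Eb (redG A f)) := by
  obtain ⟨p, q, hq, he⟩ := mem_Og.1 f.2
  have hq' : serRed A (evalA A q) ≠ 0 := by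
    rw [serRed_evalA]
    exact aeval_ne_zero (Igusa.transcendental_jqModC _) hq
  have hev : ∀ r : A[X],
      se (algebraMap (RatFunc L) E (ratIncl A r)) = (evalA A r : LaurentSeries L) := fun r => by
    rw [coe_evalA]; exact hc.hse _
  have e : se (algebraMap (RatFunc L) E f) * (evalA A q : LaurentSeries L) = evalA A p := by
    rw [← hev, ← map_mul, ← map_mul, he, hev]
  refine ⟨mem_G.2 ⟨_, _, hq', e⟩, ?_⟩
  rw [gRed_eq ⟨_, _⟩ hq' e, redG_eq f hq he, eq_comm, eq_div_iff hq',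
    serRed_evalA, serRed_evalA, ← hc.hsb, ← hc.hsb, ← map_mul, ← map_mul]
  congr 2
  exact div_mul_cancel₀ _ (ratBar_ne_zero_of_mem hq)

theorem Compat.series (hc : Compat M se sb) (y : M.S) :
    ∃ h : se y ∈ G A, gRed A ⟨_, h⟩ = sb (M.red y) := by
  choose hb hbr using hc.hbasis
  choose hg hgr using fun i => hc.gauss (M.co y i)
  let z : G A := ∑ i, (⟨_, hg i⟩ : G A) * ⟨_, hb i⟩
  have hz : se y = (z : LaurentSeries L) := by
    conv_lhs => rw [← M.b.sum_repr (y : E)]
    rw [map_sum, AddSubmonoidClass.coe_finsetSum]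
    refine Finset.sum_congr rfl fun i _ => ?_
    rw [Algebra.smul_def, map_mul]
    rfl
  refine ⟨hz ▸ z.2, ?_⟩
  rw [show (⟨se y, hz ▸ z.2⟩ : G A) = z from Subtype.ext hz, map_sum, Model.red_apply, map_sum]
  refine Finset.sum_congr rfl fun i _ => ?_
  rw [map_mul, hbr, hgr, Algebra.smul_def, map_mul]

theorem Compat.se_C (hc : Compat M se sb) (c : L) :
    se (algebraMap (RatFunc L) E (RatFunc.C c)) = algebraMap L (LaurentSeries L) c := by
  rw [← RatFunc.algebraMap_C, hc.hse, aeval_C]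

/-- An element with series in `G` lies in the lattice. -/
theorem Compat.mem_S (hc : Compat M se sb) (hsb : Function.Injective sb) {y : E}
    (hy : se y ∈ G A) : y ∈ M.S := by
  classical
  rcases eq_or_ne y 0 with rfl | hy0
  · exact zero_mem _
  obtain ⟨c, -, z, hyz, hz⟩ := M.exists_scale' hy0
  obtain ⟨hzG, hzr⟩ := hc.series z
  have hcA : c ∈ A := by
    refine scalar_mem hzG (by rw [hzr]; exact fun h => hz (hsb (by rw [h, map_zero]))) ?_
    rw [← hc.se_C, ← map_mul, ← hyz]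
    exact hy
  rw [hyz]
  exact mul_mem (M.algebraMap_mem (C_mem_Og hcA)) z.2

end Model

end Fermat.Agent.DeligneSerre.SeriesG
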