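import Fermat.Agent.DeligneSerre.SeriesG

/-!
# The relation "is integral and reduces to"
-/

set_option autoImplicit false
set_option linter.unusedSectionVars false

noncomputable section

open IsLocalRing ModularCurve

namespace Fermat.Agent.DeligneSerre.SeriesG

open Fermat.Agent.RedTorsion

variable {L : Type*} [Field L] {A : ValuationSubring L}

local notation "κ" => ResidueField A

variable (A) in
/-- `f` is a primitive fraction with reduction `h`. -/
def RedsTo (f : LaurentSeries L) (h : LaurentSeries (ResidueField A)) : Prop :=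
  ∃ hm : f ∈ G A, gRed A ⟨f, hm⟩ = h

variable {f g : LaurentSeries L} {h k : LaurentSeries (ResidueField A)}

theorem RedsTo.unique (hf : RedsTo A f h) (hk : RedsTo A f k) : h = k := by
  obtain ⟨_, rfl⟩ := hf
  obtain ⟨_, rfl⟩ := hk
  rfl

theorem RedsTo.mul (hf : RedsTo A f h) (hg : RedsTo A g k) : RedsTo A (f * g) (h * k) := by
  obtain ⟨a, rfl⟩ := hf
  obtain ⟨b, rfl⟩ := hg
  refine ⟨mul_mem a b, ?_⟩
  rw [← map_mul]
  congr 1

theorem RedsTo.one : RedsTo A 1 1 := ⟨one_mem _, map_one (gRed A)⟩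

theorem RedsTo.pow (hf : RedsTo A f h) (n : ℕ) : RedsTo A (f ^ n) (h ^ n) := by
  obtain ⟨a, rfl⟩ := hf
  refine ⟨pow_mem a n, ?_⟩
  rw [← map_pow]
  congr 1

theorem RedsTo.prod {ι : Type*} (s : Finset ι) {f : ι → LaurentSeries L}
    {h : ι → LaurentSeries (ResidueField A)} (H : ∀ i ∈ s, RedsTo A (f i) (h i)) :
    RedsTo A (∏ i ∈ s, f i) (∏ i ∈ s, h i) := by
  classical
  induction s using Finset.induction with
  | empty => simpa using RedsTo.one
  | insert i s hi ih =>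
    rw [Finset.prod_insert hi, Finset.prod_insert hi]
    exact (H i (Finset.mem_insert_self _ _)).mul
      (ih fun j hj => H j (Finset.mem_insert_of_mem hj))

theorem RedsTo.inv (hf : RedsTo A f h) (h0 : h ≠ 0) : RedsTo A f⁻¹ h⁻¹ := by
  obtain ⟨a, rfl⟩ := hf
  exact inv_mem a h0

theorem RedsTo.const {c : L} (hc : c ∈ A) :
    RedsTo A (algebraMap L (LaurentSeries L) c)
      (algebraMap κ (LaurentSeries κ) (residue A ⟨c, hc⟩)) :=
  ⟨algebraMap_mem_G hc, gRed_algebraMap hc⟩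

theorem RedsTo.expand (hf : RedsTo A f h) (n : ℕ) [NeZero n] :
    RedsTo A (ModularCurve.qExpand L n f) (ModularCurve.qExpand κ n h) := by
  obtain ⟨a, rfl⟩ := hf
  exact qExpand_mem n a

theorem RedsTo.mapCoeff (hf : RedsTo A f h) (σ : L →+* L) (τ : κ →+* κ)
    (hσ : ∀ a : A, σ a ∈ A) (hτ : ∀ a : A, residue A ⟨σ a, hσ a⟩ = τ (residue A a)) :
    RedsTo A (ModularCurve.coeffMap σ f) (ModularCurve.coeffMap τ h) := by
  obtain ⟨a, rfl⟩ := hf
  exact coeffMap_mem σ τ hσ hτ a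

theorem RedsTo.twisted {A : ValuationSubring (AlgebraicClosure ℚ)} {p : ℕ} [NeZero p]
    (hp : p.Prime) [CharP (ResidueField A) p] {f : LaurentSeries (AlgebraicClosure ℚ)}
    {h : LaurentSeries (ResidueField A)} (hf : RedsTo A f h)
    (u : (AlgebraicClosure ℚ)ˣ) (hu : u ^ p = 1) : RedsTo A (ModFun.twist u f) h := by
  obtain ⟨a, rfl⟩ := hf
  exact twist_mem hp u hu a

/-- Two primitive multiples of a series differ by a unit. -/
theorem RedsTo.exists_scalar {c : L} (hf : RedsTo A f h)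
    (hg : RedsTo A (algebraMap L (LaurentSeries L) c * f) k) (h0 : h ≠ 0) (hk : k ≠ 0) :
    ∃ hc : c ∈ A, residue A ⟨c, hc⟩ ≠ 0 ∧
      k = algebraMap κ (LaurentSeries κ) (residue A ⟨c, hc⟩) * h := by
  obtain ⟨a, ha⟩ := hf
  obtain ⟨b, hb⟩ := hg
  have hc : c ∈ A := scalar_mem a (ha ▸ h0) b
  have e := ((RedsTo.const hc).mul ⟨a, ha⟩).unique ⟨b, hb⟩
  refine ⟨hc, fun h1 => hk ?_, e.symm⟩
  rw [← e, h1, map_zero, zero_mul]

end Fermat.Agent.DeligneSerre.SeriesG
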