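import Fermat.Agent.Deform.BurnsideSpan
import Mathlib.LinearAlgebra.Dimension.Finite
import Mathlib.LinearAlgebra.FiniteDimensional.Lemmas

/-!
# An irreducible constituent inside a common eigenspace
-/

set_option autoImplicit false

noncomputable section

namespace Fermat.Agent.DeligneSerre

open Module

variable {k : Type*} [Field k] [IsAlgClosed k] {H : Type*} [Monoid H] {n : Type*} [Fintype n]
  [DecidableEq n]

/-- A group commuting with a family of operators has, in each non-zero common eigenspace, an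
absolutely irreducible subrepresentation. -/
theorem exists_constituent (g : H →* Matrix n n k) {ι : Type*} (B : ι → Matrix n n k)
    (hcomm : ∀ i x, Commute (B i) (g x)) {α : ι → k} {v : n → k} (hv : v ≠ 0)
    (hBv : ∀ i, (B i).mulVec v = α i • v) :
    ∃ (d : ℕ) (σ : H →* Matrix (Fin d) (Fin d) k) (j : (Fin d → k) →ₗ[k] (n → k)),
      0 < d ∧ Function.Injective j ∧ Submodule.span k (Set.range σ) = ⊤ ∧
        (∀ x y, (g x).mulVec (j y) = j ((σ x).mulVec y)) ∧
          ∀ i y, (B i).mulVec (j y) = α i • j y := by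
  classical
  let P : Submodule k (n → k) → Prop := fun U =>
    U ≠ ⊥ ∧ (∀ i, ∀ y ∈ U, (B i).mulVec y = α i • y) ∧ ∀ x, ∀ y ∈ U, (g x).mulVec y ∈ U
  let W : Submodule k (n → k) :=
    { carrier := {y | ∀ i, (B i).mulVec y = α i • y}
      add_mem' := fun {a b} ha hb i => by rw [Matrix.mulVec_add, ha i, hb i, smul_add]
      zero_mem' := fun i => by rw [Matrix.mulVec_zero, smul_zero]
      smul_mem' := fun c a ha i => by rw [Matrix.mulVec_smul, ha i, smul_comm] }
  have hW : P W := ⟨fun h => hv ((Submodule.mem_bot k).1 (h ▸ (hBv : v ∈ W))), fun i y hy => hy i,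
    fun x y hy i => by
      rw [Matrix.mulVec_mulVec, (hcomm i x).eq, ← Matrix.mulVec_mulVec, hy i, Matrix.mulVec_smul]⟩
  have hex : ∃ r : ℕ, ∃ U, P U ∧ finrank k U = r := ⟨_, W, hW, rfl⟩
  obtain ⟨U, ⟨hU0, hUB, hUg⟩, hUr⟩ := Nat.find_spec hex
  let b := finBasis k U
  let j : (Fin (finrank k U) → k) →ₗ[k] (n → k) := U.subtype.comp b.equivFun.symm.toLinearMap
  have hj : Function.Injective j := Subtype.val_injective.comp b.equivFun.symm.injective
  have hjU : ∀ y, j y ∈ U := fun y => (b.equivFun.symm y).2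
  let A : H → Matrix (Fin (finrank k U)) (Fin (finrank k U)) k := fun x =>
    LinearMap.toMatrix' (b.equivFun.toLinearMap.comp
      ((((g x).mulVecLin).restrict (hUg x)).comp b.equivFun.symm.toLinearMap))
  have hA : ∀ x y, (g x).mulVec (j y) = j ((A x).mulVec y) := fun x y => by
    show _ = j _
    rw [← Matrix.toLin'_apply (A x), Matrix.toLin'_toMatrix']
    show _ = ((b.equivFun.symm (b.equivFun _) : U) : n → k)
    rw [LinearEquiv.symm_apply_apply]
    rfl
  let σ : H →* Matrix (Fin (finrank k U)) (Fin (finrank k U)) k :=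
    { toFun := A
      map_one' := Matrix.ext_of_mulVec_single fun i => hj (by
        rw [← hA, map_one, Matrix.one_mulVec, Matrix.one_mulVec])
      map_mul' := fun a c => Matrix.ext_of_mulVec_single fun i => hj (by
        rw [← hA, map_mul, ← Matrix.mulVec_mulVec, ← Matrix.mulVec_mulVec, hA, hA]) }
  have hd : 0 < finrank k U := Submodule.one_le_finrank_iff.2 hU0
  refine ⟨_, σ, j, hd, hj, Deform.span_range_eq_top_of_irreducible hd σ fun U' hU' => ?_, hA,
    fun i y => hUB i _ (hjU y)⟩
  rcases eq_or_ne U' ⊥ with h | h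
  · exact Or.inl h
  refine Or.inr (Submodule.eq_top_of_finrank_eq (le_antisymm (Submodule.finrank_le _) ?_))
  rw [Module.finrank_fin_fun]
  refine hUr.le.trans (Nat.find_le ⟨U'.map j, ⟨?_, ?_, ?_⟩, ?_⟩)
  · intro h0
    refine h (Submodule.map_injective_of_injective hj ?_)
    rw [h0, Submodule.map_bot]
  · rintro i _ ⟨y, -, rfl⟩
    exact hUB i _ (hjU y)
  · rintro x _ ⟨y, hy, rfl⟩
    rw [hA]
    exact Submodule.mem_map_of_mem (hU' x y hy)
  · exact (Submodule.equivMapOfInjective j hj U').finrank_eq.symm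

end Fermat.Agent.DeligneSerre
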