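import Fermat.Agent.DeligneSerre.Curve.GaloisMatrix
import Fermat.Agent.DeligneSerre.GaloisConstituent
import Fermat.Agent.DeligneSerre.Quadratic
import Fermat.Agent.Arith.Chebotarev.Main
import Fermat.Prelude.Def_GaloisRep_Residual

/-!
# Two-dimensional representations attached to eigenclasses in characteristic `m`

An eigenclass of the good operators on homomorphisms of `±Γ₁(M)` gives a two-dimensional
representation of the Galois group, unramified outside `M m`, with the Eichler–Shimura relations.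
-/

set_option autoImplicit false
set_option linter.unusedSectionVars false

noncomputable section

namespace Fermat.Agent.DeligneSerre

open Fermat.Agent.Arith
open Fermat.Agent.DeligneSerre.Curve (GoodLevel G1 gMat opMatMod pU)

local notation "KK" => Subgroup.zpowers (-1 : (ZMod _)ˣ)

variable {M : ℕ} [NeZero M] [GoodLevel M] {m : ℕ} [hm : Fact m.Prime] {k : Type} [Field k]
  [CharP k m]

/-- The Galois matrices over `k`. -/
def gK (M : ℕ) [NeZero M] [GoodLevel M] (m : ℕ) [Fact m.Prime] (k : Type) [Field k] [CharP k m] :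
    GQ →* Matrix (Fin (homRank M)) (Fin (homRank M)) k where
  toFun σ := (gMat (M := M) m σ).map (ZMod.castHom dvd_rfl k)
  map_one' := by rw [Curve.gMat_one, Matrix.map_one _ (map_zero _) (map_one _)]
  map_mul' σ τ := by rw [Curve.gMat_mul, Matrix.map_mul]

theorem map_opMatMod (i : GoodOp M) :
    (opMatMod m i).map (ZMod.castHom dvd_rfl k) = (opMat i).map (Int.cast : ℤ → k) := by
  ext a b
  simp [opMatMod]

theorem natCast_ne_zero_residue {A : ValuationSubring QBar} {p : ℕ} (hA : A.LiesOverPrime p)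
    (hp : p.Prime) {n : ℕ} (h : ¬ p ∣ n) : (n : IsLocalRing.ResidueField A) ≠ 0 := by
  have := Arith.residueField_charP hA hp
  exact fun h0 => h ((CharP.cast_eq_zero_iff (IsLocalRing.ResidueField A) p n).1 h0)

/-- The representation attached to an eigenclass. -/
theorem exists_modRep [IsAlgClosed k] (h2 : (2 : k) ≠ 0) {α : ℕ → k} {D : (ZMod M)ˣ → k}
    {v : Additive (G1 M) →+ k} (hv : v ≠ 0) (hvmem : v ∈ Gamma0.ellParHoms (G1 M) k)
    (hT : ∀ (p : ℕ) [Fact p.Prime], ¬ p ∣ M → RT.GammaH.hecke M KK p k v = α p • v)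
    (hD : ∀ u, RT.GammaH.diamond M KK k u v = D u • v)
    (Ψ : (ZMod M)ˣ →* k)
    (hΨ : ∀ (p : ℕ) [Fact p.Prime] (h : ¬ p ∣ M), Ψ (pU h) = (p : k) * D (pU h)) :
    ∃ ρ : GQ →* Matrix (Fin 2) (Fin 2) k, GaloisFactorsThroughFiniteLevel ρ ∧
      (Submodule.span k (Set.range ρ) = ⊤ ∨ ∀ g, ρ g 0 1 = 0 ∧ ρ g 1 0 = 0) ∧
      ∀ (p : ℕ) [Fact p.Prime] (h : ¬ p ∣ M), p ≠ m → ∀ A : ValuationSubring QBar,
        A.LiesOverPrime p → (∀ σ ∈ A.inertiaSubgroupIn ℚ, ρ σ = 1) ∧
          ∀ σ : GQ, A.IsFrobeniusAt σ p → (ρ σ).trace = α p ∧ (ρ σ).det = Ψ (pU h) := by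
  classical
  let α' : GoodOp M → k := fun i => match i with
    | .inl q => α q.1
    | .inr u => D u
  let vk : Fin (homRank M) → k := fun a => v (Additive.ofMul (homPts M a))
  have hvk : vk ≠ 0 := fun h => hv (eq_of_homPts hvmem (zero_mem _) fun a => congrFun h a)
  have hgood : ∀ i : GoodOp M, goodOp k i v = α' i • v := by
    rintro (q | u)
    · have := Fact.mk q.2.1
      exact hT q.1 q.2.2
    · exact hD u
  have hB : ∀ i : GoodOp M, ((opMat i).map (Int.cast : ℤ → k)).mulVec vk = α' i • vk := fun i =>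
    funext fun b => by
      refine Eq.trans ?_ ((goodOp_apply_homPts (S := k) i hvmem b).symm.trans
        (DFunLike.congr_fun (hgood i) _))
      simp [Matrix.mulVec, dotProduct, vk]
  have hcomm : ∀ i σ, Commute ((opMat i).map (Int.cast : ℤ → k)) (gK M m k σ) := fun i σ => by
    rw [← map_opMatMod (m := m)]
    exact (Curve.commute_gMat σ i).map (ZMod.castHom dvd_rfl k).mapMatrix
  obtain ⟨d, σU, j, hd, hj, hspan, hjg, hjB⟩ :=
    exists_constituent (gK M m k) _ hcomm hvk hB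
  -- trivial at inertia
  have hin : ∀ (p : ℕ) [Fact p.Prime], ¬ p ∣ M → p ≠ m → ∀ A : ValuationSubring QBar,
      A.LiesOverPrime p → ∀ σ ∈ A.inertiaSubgroupIn ℚ, σU σ = 1 := by
    intro p hp hpM hpm A hA σ hσ
    have hg : gK M m k σ = 1 := by
      show (gMat (M := M) m σ).map (ZMod.castHom dvd_rfl k) = 1
      rw [Curve.gMat_eq_one_of_inertia (natCast_ne_zero_residue hA hp.out hpM)
        (natCast_ne_zero_residue hA hp.out fun h =>
          hpm ((Nat.prime_dvd_prime_iff_eq hp.out hm.out).1 h)) hσ,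
        Matrix.map_one _ (map_zero _) (map_one _)]
    refine Matrix.ext_of_mulVec_single fun i => hj ?_
    rw [← hjg, hg, Matrix.one_mulVec, Matrix.one_mulVec]
  -- the congruence relation
  have hrel : ∀ (p : ℕ) [Fact p.Prime] (h : ¬ p ∣ M), p ≠ m → ∀ A : ValuationSubring QBar,
      A.LiesOverPrime p → ∀ σ : GQ, A.IsFrobeniusAt σ p →
        σU σ + Ψ (pU h) • σU σ⁻¹ = α p • (1 : Matrix (Fin d) (Fin d) k) := by
    intro p hp hpM hpm A hA σ hσ
    have h1 := congrArg (ZMod.castHom dvd_rfl k).mapMatrix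
      (Curve.opMatMod_eq_of_frobenius (M := M) (m := m) hA hpM hpm hσ)
    refine Matrix.ext_of_mulVec_single fun i => hj ?_
    set y : Fin d → k := Pi.single i 1
    rw [Matrix.add_mulVec, Matrix.smul_mulVec, Matrix.smul_mulVec, Matrix.one_mulVec, map_add,
      map_smul, map_smul, ← hjg, ← hjg, ← hjB (.inl ⟨p, hp.out, hpM⟩) y, hΨ p hpM, mul_smul,
      show D (pU hpM) = α' (.inr (pU hpM)) from rfl]
    rw [show α' (.inr (pU hpM)) • (gK M m k σ⁻¹).mulVec (j y) =
      ((opMat (.inr (pU hpM))).map (Int.cast : ℤ → k)).mulVec ((gK M m k σ⁻¹).mulVec (j y)) by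
        rw [hjg, hjB], ← map_opMatMod (m := m), ← map_opMatMod (m := m)]
    rw [show (opMatMod m (.inl ⟨p, hp.out, hpM⟩)).map (ZMod.castHom dvd_rfl k) =
      gK M m k σ + (p : k) • ((opMatMod m (.inr (pU hpM))).map (ZMod.castHom dvd_rfl k) *
        gK M m k σ⁻¹) from ?_, Matrix.add_mulVec, Matrix.smul_mulVec, Matrix.mulVec_mulVec]
    refine h1.trans ?_
    show ((gMat m σ + (p : ZMod m) • (opMatMod m (.inr (pU hpM)) * gMat m σ⁻¹)).map
      (ZMod.castHom dvd_rfl k)) = _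
    ext a b
    rw [Matrix.map_apply, Matrix.add_apply, Matrix.smul_apply, smul_eq_mul, map_add, map_mul, map_natCast,
      ← Matrix.map_apply (f := ⇑(ZMod.castHom dvd_rfl k))
        (M := opMatMod m (.inr (pU hpM)) * gMat m σ⁻¹), Matrix.map_mul]
    rfl
  -- the character
  let χ : GQ →* k := Ψ.comp (cyclotomicHom M)
  have hχp : ∀ (p : ℕ) [Fact p.Prime] (h : ¬ p ∣ M), ∀ A : ValuationSubring QBar,
      A.LiesOverPrime p → ∀ σ : GQ, A.IsFrobeniusAt σ p → χ σ = Ψ (pU h) := by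
    intro p hp hpM A hA σ hσ
    refine congrArg Ψ (Units.ext ?_)
    exact (Arith.modularCyclotomicCharacter_frobenius hA hp.out hσ _ hpM).trans
      (ZMod.coe_unitOfCoprime _ _).symm
  obtain ⟨L₁, hL₁, hL₁'⟩ := Curve.gMat_factors (M := M) (m := m)
  obtain ⟨L₂, hL₂, hL₂'⟩ := cyclotomicHom_factors M
  have hfd : FiniteDimensional ℚ (L₁ ⊔ L₂ : IntermediateField ℚ QBar) :=
    IntermediateField.finiteDimensional_sup _ _
  have hσ1 : ∀ τ : GQ, (∀ x ∈ (L₁ ⊔ L₂ : IntermediateField ℚ QBar), τ x = x) →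
      σU τ = 1 ∧ χ τ = 1 := fun τ hτ => by
    have hg : gK M m k τ = 1 := by
      show (gMat (M := M) m τ).map (ZMod.castHom dvd_rfl k) = 1
      rw [hL₁' τ fun x hx => hτ x ((le_sup_left : L₁ ≤ L₁ ⊔ L₂) hx),
        Matrix.map_one _ (map_zero _) (map_one _)]
    refine ⟨Matrix.ext_of_mulVec_single fun i => hj ?_, ?_⟩
    · rw [← hjg, hg, Matrix.one_mulVec, Matrix.one_mulVec]
    · show Ψ (cyclotomicHom M τ) = 1
      rw [hL₂' τ fun x hx => hτ x ((le_sup_right : L₂ ≤ L₁ ⊔ L₂) hx), map_one]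
  have hscal : ∀ g, ∃ t : k, σU g + χ g • σU g⁻¹ = t • 1 := by
    intro g
    obtain ⟨p, hp, hpS, A, hA, σ, hσ, he⟩ := Arith.Chebotarev.exists_frobenius_eq
      (σU.prod χ) (L₁ ⊔ L₂) (fun τ hτ => Prod.ext (hσ1 τ hτ).1 (hσ1 τ hτ).2) g
      (M.primeFactors ∪ {m})
    simp only [Finset.mem_union, Finset.mem_singleton, not_or] at hpS
    have := Fact.mk hp
    have hpM : ¬ p ∣ M := fun h =>
      hpS.1 (Nat.mem_primeFactors.2 ⟨hp, h, NeZero.ne M⟩)
    have e1 : σU σ = σU g := congrArg Prod.fst he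
    have e2 : χ σ = χ g := congrArg Prod.snd he
    have e3 : σU σ⁻¹ = σU g⁻¹ := left_inv_eq_right_inv
      (show σU σ⁻¹ * σU g = 1 by rw [← e1, ← map_mul, inv_mul_cancel, map_one])
      (show σU g * σU g⁻¹ = 1 by rw [← map_mul, mul_inv_cancel, map_one])
    exact ⟨α p, by rw [← e1, ← e2, ← e3, hχp p hpM A hA σ hσ]; exact hrel p hpM hpS.2 A hA σ hσ⟩
  have hχmul : ∀ g g', χ (g * g') = χ g * χ g' := map_mul χ
  have hle : d ≤ 2 := by
    have := card_le_two h2 hspan hχmul hscal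
    rwa [Fintype.card_fin] at this
  have hχin : ∀ (p : ℕ) [Fact p.Prime], ¬ p ∣ M → ∀ A : ValuationSubring QBar,
      A.LiesOverPrime p → ∀ σ ∈ A.inertiaSubgroupIn ℚ, χ σ = 1 := by
    intro p hp hpM A hA σ hσ
    show Ψ (cyclotomicHom M σ) = 1
    rw [show cyclotomicHom M σ = 1 from
      Arith.modularCyclotomicCharacter_inertia hA hp.out hσ _ hpM, map_one]
  obtain rfl | rfl : d = 1 ∨ d = 2 := by omega
  · let ψ : GQ →* k :=
      { toFun := fun g => σU g 0 0
        map_one' := by rw [map_one, Matrix.one_apply_eq]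
        map_mul' := fun a b => by rw [map_mul, Matrix.mul_apply, Fin.sum_univ_one] }
    let ρ : GQ →* Matrix (Fin 2) (Fin 2) k :=
      { toFun := fun g => !![ψ g, 0; 0, χ g * ψ g⁻¹]
        map_one' := by
          rw [inv_one, map_one, map_one, one_mul, ← Matrix.one_fin_two]
        map_mul' := fun a b => by
          simp only [map_mul, mul_inv_rev, Matrix.mul_fin_two, mul_zero, zero_mul, add_zero,
            zero_add]
          ext i j; fin_cases i <;> fin_cases j <;> simp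
          ring }
    refine ⟨ρ, ⟨L₁ ⊔ L₂, hfd, fun τ hτ => ?_⟩, Or.inr fun g => ⟨by simp [ρ], by simp [ρ]⟩,
      fun p hp hpM hpm A hA => ⟨fun σ hσ => ?_, fun σ hσ => ?_⟩⟩
    · show !![ψ τ, 0; 0, χ τ * ψ τ⁻¹] = 1
      have h3 : ψ τ⁻¹ = 1 := by
        have : σU τ⁻¹ = 1 := (hσ1 τ⁻¹ fun x hx => by
          conv_lhs => rw [← hτ x hx]
          exact τ.symm_apply_apply x).1
        show σU τ⁻¹ 0 0 = 1
        rw [this, Matrix.one_apply_eq]
      rw [show ψ τ = 1 by show σU τ 0 0 = 1; rw [(hσ1 τ hτ).1, Matrix.one_apply_eq],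
        (hσ1 τ hτ).2, h3, one_mul, ← Matrix.one_fin_two]
    · show !![ψ σ, 0; 0, χ σ * ψ σ⁻¹] = 1
      rw [show ψ σ = 1 by show σU σ 0 0 = 1; rw [hin p hpM hpm A hA σ hσ, Matrix.one_apply_eq],
        show ψ σ⁻¹ = 1 by
          show σU σ⁻¹ 0 0 = 1
          rw [hin p hpM hpm A hA σ⁻¹ (inv_mem hσ), Matrix.one_apply_eq],
        hχin p hpM A hA σ hσ, one_mul, ← Matrix.one_fin_two]
    · have h := congrFun (congrFun (hrel p hpM hpm A hA σ hσ) 0) 0
      simp at h
      have hψ : ψ σ * ψ σ⁻¹ = 1 := by rw [← map_mul, mul_inv_cancel, map_one]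
      refine ⟨?_, ?_⟩
      · show (!![ψ σ, 0; 0, χ σ * ψ σ⁻¹]).trace = _
        rw [Matrix.trace_fin_two_of, hχp p hpM A hA σ hσ]
        exact h
      · show (!![ψ σ, 0; 0, χ σ * ψ σ⁻¹]).det = _
        rw [Matrix.det_fin_two_of, ← hχp p hpM A hA σ hσ]
        linear_combination χ σ * hψ
  · refine ⟨σU, ⟨L₁ ⊔ L₂, hfd, fun τ hτ => (hσ1 τ hτ).1⟩, Or.inl hspan,
      fun p hp hpM hpm A hA => ⟨hin p hpM hpm A hA, fun σ hσ => ?_⟩⟩
    obtain ⟨htr, hdet⟩ := trace_det_eq h2 hspan hχmul hscal σ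
    rw [hχp p hpM A hA σ hσ] at htr hdet
    refine ⟨?_, hdet⟩
    have h := congrFun (congrFun ((hrel p hpM hpm A hA σ hσ).symm.trans htr) 0) 0
    simpa using h.symm

end Fermat.Agent.DeligneSerre
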