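import Mathlib.RingTheory.Ideal.GoingUp
import Fermat.Agent.DeligneSerre.PeriodsEigvec
import Fermat.Agent.DeligneSerre.PeriodsForms
import Fermat.Agent.DeligneSerre.Residue

/-!
# An eigenclass in `Hom(Γ_{±1}(M), k)` from a form which is an eigenform modulo `ℓ`

If a weight two form with nebentypus has integral coefficients satisfying the Hecke recursion
modulo a prime, the periods give a non-zero homomorphism into the residue field, killing elliptic
and parabolic elements, with the same eigenvalues.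
-/

set_option autoImplicit false

noncomputable section

namespace Fermat.Agent.DeligneSerre

open CongruenceSubgroup ModularFormClass Matrix
open UpperHalfPlane hiding I
open Fermat.Agent.RT.GammaH Fermat.Agent.Gamma0 Fermat.Agent.Periods.Congruence
open scoped MatrixGroups ModularForm Manifold

variable {M : ℕ} [NeZero M] {δ : DirichletCharacter ℂ M}

omit [NeZero M] in
theorem isIntegral_dirichlet [Finite (ZMod M)ˣ] (δ : DirichletCharacter ℂ M) (u : (ZMod M)ˣ) :
    IsIntegral ℤ (δ (u : ZMod M)) := by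
  refine IsIntegral.of_pow (n := orderOf u) (orderOf_pos u) ?_
  rw [← map_pow, ← Units.val_pow_eq_pow_val, pow_orderOf_eq_one, Units.val_one, map_one]
  exact isIntegral_one

/-- A form with nebentypus is invariant under `Γ_{±1}(M)`. -/
theorem exists_pmForm (f : CuspForm (Gamma1 M) 2) (hneb : HasNeb 2 δ ⇑f) (hf : ⇑f ≠ 0) :
    ∃ f₀ : CuspForm (pmGroup M) 2, ⇑f₀ = ⇑f ∧ IsNebPM δ f₀ := by
  have hneg : δ (-1) = 1 := by
    obtain ⟨τ, hτ⟩ := Function.ne_iff.1 hf
    have h := congrFun (hneb (-1) (Gamma0_mem.2 (by simp))) τ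
    rw [ModularForm.SL_slash_apply] at h
    simp [denom] at h
    exact mul_right_cancel₀ hτ (by rw [one_mul]; exact h.symm)
  have hinv : ∀ γ ∈ pmGroup M, ⇑f ∣[(2 : ℤ)] γ = ⇑f := by
    intro γ hγ
    obtain ⟨hc, u, hu, ha⟩ := hγ
    have hd : ((γ 0 0 : ℤ) : ZMod M) * γ 1 1 - γ 0 1 * γ 1 0 = 1 := by
      exact_mod_cast congrArg (Int.cast : ℤ → ZMod M) (Gamma0.det_eq γ)
    rw [hc, mul_zero, sub_zero, ha] at hd
    have h11 : ((γ 1 1 : ℤ) : ZMod M) = ((u⁻¹ : (ZMod M)ˣ) : ZMod M) :=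
      (Units.inv_eq_of_mul_eq_one_right hd).symm
    obtain ⟨m, rfl⟩ := Subgroup.mem_zpowers_iff.1 hu
    rw [hneb γ (Gamma0_mem.2 hc), h11, ← MulChar.coe_toUnitHom, map_inv, map_zpow]
    have h1 : δ.toUnitHom (-1) = 1 := Units.ext (by rw [MulChar.coe_toUnitHom]; simpa using hneg)
    rw [h1, _root_.one_zpow, inv_one, Units.val_one, one_smul]
  refine ⟨mkCuspForm (pmGroup M) 2 ⇑f hinv (CuspFormClass.holo f)
    (fun γ => CuspFormClass.zero_at_infty_slash f γ), rfl, fun u => ?_⟩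
  have h := hneb (gamma0Elt u⁻¹) (gamma0Elt_mem _)
  rwa [gamma0Elt_lowerRight, inv_inv] at h

/-- The value of the periods on the chosen points. -/
def perVec (g : CuspForm (pmGroup M) 2) : Fin (homRank M) → ℂ :=
  fun b => per g (Additive.ofMul (homPts M b))

theorem perVec_add (g h : CuspForm (pmGroup M) 2) : perVec (g + h) = perVec g + perVec h :=
  funext fun _ => DFunLike.congr_fun (map_add (perLin Gamma_le_gammaH) g h) _

theorem perVec_smul (c : ℂ) (g : CuspForm (pmGroup M) 2) : perVec (c • g) = c • perVec g :=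
  funext fun _ => DFunLike.congr_fun (map_smul (perLin Gamma_le_gammaH) c g) _

theorem per_mem_ellParHoms (g : CuspForm (pmGroup M) 2) : per g ∈ ellParHoms (pmGroup M) ℂ :=
  fun γ hγ => per_eq_zero_of_trace_sq_le Gamma_le_gammaH g γ hγ

theorem perVec_injective {g : CuspForm (pmGroup M) 2} (h : perVec g = 0) : g = 0 :=
  per_injective Gamma_le_gammaH
    (eq_of_homPts (per_mem_ellParHoms g) (zero_mem _) fun b => congrFun h b)

variable {k : Type} [Field k]

/-- `g` is, modulo the kernel of `φ`, the multiple `c` of the form with coefficients `a`. -/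
def IsCongMul (δ : DirichletCharacter ℂ M) (φ : ZBar →+* k) (a : ℕ → ZBar)
    (g : CuspForm (pmGroup M) 2) (c : k) : Prop :=
  IsNebPM δ g ∧ ∀ n, ∃ x : ZBar, (x : ℂ) = qCoeff g n ∧ φ x = c * φ (a n)

variable {φ : ZBar →+* k} {a : ℕ → ZBar}

omit [NeZero M] in
theorem IsCongMul.add {g h : CuspForm (pmGroup M) 2} {c d : k} (hg : IsCongMul δ φ a g c)
    (hh : IsCongMul δ φ a h d) : IsCongMul δ φ a (g + h) (c + d) := by
  refine ⟨hg.1.add hh.1, fun n => ?_⟩
  obtain ⟨x, hx, hx'⟩ := hg.2 n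
  obtain ⟨y, hy, hy'⟩ := hh.2 n
  refine ⟨x + y, ?_, by rw [map_add, hx', hy', add_mul]⟩
  rw [Subalgebra.coe_add, hx, hy, qCoeff, qCoeff, qCoeff, FunLike.coe_add,
    ModularForm.qExpansion_add one_pos one_mem_strictPeriods_pmGroup, map_add]

omit [NeZero M] in
theorem IsCongMul.smul {g : CuspForm (pmGroup M) 2} {c : k} (hg : IsCongMul δ φ a g c)
    (z : ZBar) : IsCongMul δ φ a ((z : ℂ) • g) (φ z * c) := by
  refine ⟨hg.1.smul _, fun n => ?_⟩
  obtain ⟨x, hx, hx'⟩ := hg.2 n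
  refine ⟨z * x, ?_, by rw [map_mul, hx', mul_assoc]⟩
  rw [Subalgebra.coe_mul, hx, qCoeff, qCoeff, FunLike.coe_smul,
    ModularForm.qExpansion_smul one_pos one_mem_strictPeriods_pmGroup, map_smul, smul_eq_mul]

omit [NeZero M] in
theorem IsCongMul.zero : IsCongMul δ φ a (0 : CuspForm (pmGroup M) 2) 0 := by
  refine ⟨IsNebPM.zero, fun n => ⟨0, ?_, by simp⟩⟩
  simp [qCoeff, UpperHalfPlane.qExpansion_zero]

/-- The main step: the integral matrices and the eigenvalues modulo the kernel of `φ`. -/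
theorem exists_eigvec {ℓ : ℕ} (hℓ : ℓ.Prime) (hφℓ : φ ℓ = 0) {f₀ : CuspForm (pmGroup M) 2}
    (hf₀ : IsNebPM δ f₀) (ha : ∀ n, (a n : ℂ) = qCoeff f₀ n) (ha1 : φ (a 1) = 1)
    (aOp : GoodOp M → ZBar)
    (hstep : ∀ i g c, IsCongMul δ φ a g c → ∃ g', IsCongMul δ φ a g' (φ (aOp i) * c) ∧
      perVec g' = (opMat i).map (Int.cast : ℤ → ℂ) *ᵥ perVec g) :
    ∃ x : Fin (homRank M) → k, x ≠ 0 ∧
      ∀ i, (opMat i).map (Int.cast : ℤ → k) *ᵥ x = φ (aOp i) • x := by
  have hne : (RingHom.ker φ).comap (algebraMap ℤ ZBar) ≠ ⊥ := fun hb => by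
    have h1 : ((ℓ : ℤ)) ∈ (RingHom.ker φ).comap (algebraMap ℤ ZBar) := by
      rw [Ideal.mem_comap, map_natCast, RingHom.mem_ker, hφℓ]
    rw [hb, Ideal.mem_bot] at h1
    exact hℓ.ne_zero (by exact_mod_cast h1)
  have hprime : (RingHom.ker φ).IsPrime := RingHom.ker_isPrime φ
  have : (RingHom.ker φ).IsMaximal :=
    Ideal.isMaximal_of_isIntegral_of_isMaximal_comap (RingHom.ker φ)
      ((Ideal.IsPrime.comap _).isMaximal hne)
  let := Ideal.Quotient.field (RingHom.ker φ)
  set π := Ideal.Quotient.mk (RingHom.ker φ) with hπdef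
  set ψ : ZBar ⧸ RingHom.ker φ →+* k := Ideal.Quotient.lift (RingHom.ker φ) φ fun _ hx => hx
  have hψ : ∀ x, ψ (π x) = φ x := fun _ => rfl
  have hψinj : Function.Injective ψ := ψ.injective
  let ι : ZBar →+* ℂ := algebraMap ZBar ℂ
  let N : GoodOp M → Matrix (Fin (homRank M)) (Fin (homRank M)) ZBar :=
    fun i => (opMat i).map (Int.castRingHom ZBar)
  have hNι : ∀ i, (N i).map ι = (opMat i).map (Int.cast : ℤ → ℂ) := fun i => by
    ext s t; simp [N]
  -- matrices sending congruent multiples to forms congruent to zero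
  let J : Submodule ZBar (Matrix (Fin (homRank M)) (Fin (homRank M)) ZBar) :=
    { carrier := {B | ∀ g c, IsCongMul δ φ a g c → ∃ g', IsCongMul δ φ a g' 0 ∧
        perVec g' = B.map ι *ᵥ perVec g}
      zero_mem' := fun g c _ => ⟨0, IsCongMul.zero, by
        rw [Matrix.map_zero _ (map_zero ι), zero_mulVec]
        exact funext fun b => DFunLike.congr_fun (per_zero Gamma_le_gammaH) _⟩
      add_mem' := fun {B C} hB hC g c hg => by
        obtain ⟨g₁, h1, h1'⟩ := hB g c hg
        obtain ⟨g₂, h2, h2'⟩ := hC g c hg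
        refine ⟨g₁ + g₂, by simpa using h1.add h2, ?_⟩
        rw [perVec_add, h1', h2', Matrix.map_add _ (map_add ι), add_mulVec]
      smul_mem' := fun z B hB g c hg => by
        obtain ⟨g', h, h'⟩ := hB g c hg
        refine ⟨(z : ℂ) • g', by simpa using h.smul z, ?_⟩
        rw [perVec_smul, h', ← smul_mulVec]
        congr 1 }
  have hgen : ∀ i, N i - aOp i • 1 ∈ J := fun i g c hg => by
    obtain ⟨g', h, h'⟩ := hstep i g c hg
    refine ⟨g' + ((-aOp i : ZBar) : ℂ) • g, ?_, ?_⟩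
    · simpa using h.add (hg.smul (-aOp i))
    · rw [perVec_add, perVec_smul, h', ← hNι]
      have hm : (N i - aOp i • 1).map ι = (N i).map ι - (aOp i : ℂ) • 1 := by
        ext s t
        by_cases hst : s = t <;> simp [hst, ι]
      rw [hm, sub_mulVec, smul_mulVec, one_mulVec]
      simp [sub_eq_add_neg]
  have hmul : ∀ i, ∀ B ∈ J, N i * B ∈ J := fun i B hB g c hg => by
    obtain ⟨g₁, h1, h1'⟩ := hB g c hg
    obtain ⟨g₂, h2, h2'⟩ := hstep i g₁ 0 h1
    refine ⟨g₂, by simpa using h2, ?_⟩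
    rw [h2', h1', Matrix.mulVec_mulVec, Matrix.map_mul, hNι]
  rcases exists_eigvec_or_lift (π := π) Ideal.Quotient.mk_surjective N
    (fun i j => (opMat_commute i j).map (Int.castRingHom ZBar).mapMatrix) aOp J hgen hmul with
    ⟨x, hx0, hx⟩ | ⟨B, hB, hB1⟩
  · refine ⟨ψ ∘ x, fun h => hx0 (funext fun b => hψinj (by simpa using congrFun h b)), fun i => ?_⟩
    ext b
    have h := congrArg ψ (congrFun (hx i) b)
    rw [RingHom.map_mulVec] at h
    simpa [N, Matrix.map_map, Function.comp_def, hψ] using h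
  · exfalso
    set B₀ := 1 - B with hB₀
    have hB₀π : B₀.map π = 0 := by
      rw [hB₀, Matrix.map_sub _ (map_sub π), hB1, Matrix.map_one _ (map_zero π) (map_one π),
        sub_self]
    have hstep₀ : ∀ g c, IsCongMul δ φ a g c → ∃ g', IsCongMul δ φ a g' c ∧
        perVec g' = B₀.map ι *ᵥ perVec g := fun g c hg => by
      obtain ⟨g', h, h'⟩ := hB g c hg
      refine ⟨g + ((-1 : ZBar) : ℂ) • g', ?_, ?_⟩
      · simpa using hg.add (h.smul (-1))
      · rw [perVec_add, perVec_smul, h', hB₀, Matrix.map_sub _ (map_sub ι),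
          Matrix.map_one _ (map_zero ι) (map_one ι), sub_mulVec, one_mulVec]
        simp [sub_eq_add_neg]
    have hpoly : ∀ q : Polynomial ZBar, ∀ g c, IsCongMul δ φ a g c →
        ∃ g', IsCongMul δ φ a g' (φ (q.eval 1) * c) ∧
          perVec g' = (Polynomial.aeval B₀ q).map ι *ᵥ perVec g := by
      intro q
      induction q using Polynomial.induction_on with
      | C z =>
        intro g c hg
        refine ⟨(z : ℂ) • g, by simpa using hg.smul z, ?_⟩
        rw [perVec_smul, Polynomial.aeval_C, Algebra.algebraMap_eq_smul_one]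
        ext b
        simp [Matrix.mulVec, dotProduct, Matrix.one_apply, apply_ite, ite_mul, ι]
      | add p q hp hq =>
        intro g c hg
        obtain ⟨g₁, h1, h1'⟩ := hp g c hg
        obtain ⟨g₂, h2, h2'⟩ := hq g c hg
        refine ⟨g₁ + g₂, by simpa [add_mul] using h1.add h2, ?_⟩
        rw [perVec_add, h1', h2', map_add, Matrix.map_add _ (map_add ι), add_mulVec]
      | monomial n z ih =>
        intro g c hg
        obtain ⟨g₁, h1, h1'⟩ := hstep₀ g c hg
        obtain ⟨g₂, h2, h2'⟩ := ih g₁ c h1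
        refine ⟨g₂, by simpa using h2, ?_⟩
        rw [h2', h1', Matrix.mulVec_mulVec, ← Matrix.map_mul]
        simp only [map_mul, map_pow, Polynomial.aeval_X, pow_succ, mul_assoc]
    obtain ⟨g', ⟨-, hg'⟩, hper⟩ := hpoly B₀.charpoly f₀ 1 ⟨hf₀, fun n => ⟨a n, ha n, (one_mul _).symm⟩⟩
    rw [Matrix.aeval_self_charpoly, Matrix.map_zero _ (map_zero ι), zero_mulVec] at hper
    obtain rfl := perVec_injective hper
    obtain ⟨z, hz, hz'⟩ := hg' 1
    have hz0 : z = 0 := Subtype.ext (by simpa [qCoeff, UpperHalfPlane.qExpansion_zero] using hz)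
    have h1 : φ (B₀.charpoly.eval 1) = 1 := by
      rw [← hψ, ← Polynomial.eval_map_apply, charpoly_map_eq_X_pow hB₀π]
      simp
    rw [hz0, map_zero, h1, one_mul, one_mul, ha1] at hz'
    exact zero_ne_one hz'

/-- An eigenclass in characteristic `ℓ` with the eigenvalues of a form which is an eigenform
modulo `ℓ`. -/
theorem exists_periodClass {f : CuspForm (Gamma1 M) 2} (hneb : HasNeb 2 δ ⇑f) {ℓ : ℕ}
    (hℓ : ℓ.Prime) (φ : ZBar →+* k) (hφℓ : φ ℓ = 0) (a : ℕ → ZBar)
    (ha : ∀ n, (a n : ℂ) = qCoeff f n) (ha1 : φ (a 1) = 1)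
    (hrec : ∀ p : ℕ, p.Prime → ¬ p ∣ M → ∀ (n : ℕ) (y : ZBar), (y : ℂ) = δ (p : ZMod M) →
      φ (a (p * n)) + p * φ y * (if p ∣ n then φ (a (n / p)) else 0) = φ (a p) * φ (a n)) :
    ∃ v : Additive (gammaH M (Subgroup.zpowers (-1))) →+ k, v ≠ 0 ∧
      v ∈ ellParHoms (gammaH M (Subgroup.zpowers (-1))) k ∧
      (∀ (p : ℕ) [Fact p.Prime], ¬ p ∣ M →
        hecke M (Subgroup.zpowers (-1)) p k v = φ (a p) • v) ∧
      ∀ (u : (ZMod M)ˣ) (y : ZBar), (y : ℂ) = δ (u : ZMod M) →
        diamond M (Subgroup.zpowers (-1)) k u v = φ y • v := by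
  have hf : ⇑f ≠ 0 := by
    intro h0
    have h1 : a 1 = 0 := Subtype.ext (by rw [ha, h0]; simp [qCoeff, UpperHalfPlane.qExpansion_zero])
    rw [h1, map_zero] at ha1
    exact zero_ne_one ha1
  obtain ⟨f₀, hf₀, hf₀neb⟩ := exists_pmForm f hneb hf
  let dZ : (ZMod M)ˣ → ZBar := fun u => ⟨δ (u : ZMod M), isIntegral_dirichlet δ u⟩
  let aOp : GoodOp M → ZBar
    | .inl p => a p.1
    | .inr u => dZ u
  have hop : ∀ i g g', per g' = goodOp ℂ i (per g) →
      perVec (M := M) g' = (opMat i).map (Int.cast : ℤ → ℂ) *ᵥ perVec g := by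
    intro i g g' h
    ext b
    rw [perVec, h, goodOp_apply_homPts i (per_mem_ellParHoms g)]
    simp [Matrix.mulVec, dotProduct, perVec]
  have hstep : ∀ i g c, IsCongMul δ φ a g c → ∃ g', IsCongMul δ φ a g' (φ (aOp i) * c) ∧
      perVec g' = (opMat i).map (Int.cast : ℤ → ℂ) *ᵥ perVec g := by
    rintro (p | u) g c ⟨hg, hcoef⟩
    · have hp := Fact.mk p.2.1
      obtain ⟨g', hneb', hper, hco⟩ := exists_heckeForm (p := p.1) hg p.2.2
      refine ⟨g', ⟨hneb', fun n => ?_⟩, hop _ g g' hper⟩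
      have hcop := (Nat.Prime.coprime_iff_not_dvd p.2.1).2 p.2.2
      have hy : ((dZ (ZMod.unitOfCoprime p.1 hcop) : ZBar) : ℂ) = δ (p.1 : ZMod M) := by
        show δ ((ZMod.unitOfCoprime p.1 hcop : (ZMod M)ˣ) : ZMod M) = _
        rw [ZMod.coe_unitOfCoprime]
      set y := dZ (ZMod.unitOfCoprime p.1 hcop)
      obtain ⟨x₁, hx₁, hx₁'⟩ := hcoef (n * p.1)
      obtain ⟨x₂, hx₂, hx₂'⟩ := hcoef (n / p.1)
      refine ⟨x₁ + if p.1 ∣ n then (p.1 : ZBar) * y * x₂ else 0, ?_, ?_⟩
      · rw [hco n, Subalgebra.coe_add, hx₁]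
        split_ifs
        · rw [Subalgebra.coe_mul, Subalgebra.coe_mul, hy, hx₂]
          simp
        · simp
      · have e := hrec p.1 p.2.1 p.2.2 n y hy
        rw [mul_comm n p.1] at hx₁'
        rw [map_add, hx₁', show φ (aOp (.inl p)) * c * φ (a n) = c * (φ (a p.1) * φ (a n)) by
          show φ (a p.1) * c * φ (a n) = _; ring, ← e, mul_add]
        congr 1
        split_ifs
        · rw [map_mul, map_mul, map_natCast, hx₂']; ring
        · simp
    · refine ⟨((dZ u : ZBar) : ℂ) • g, IsCongMul.smul ⟨hg, hcoef⟩ (dZ u), hop _ g _ ?_⟩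
      show per (δ (u : ZMod M) • g) = diamond M _ ℂ u (per g)
      rw [diamond_per hg u]
      exact map_smul (perLin Gamma_le_gammaH) _ g
  obtain ⟨x, hx0, hx⟩ := exists_eigvec hℓ hφℓ hf₀neb (fun n => by rw [ha, hf₀]) ha1 aOp hstep
  have hev : ∀ i, goodOp k i (ofVec x) = φ (aOp i) • ofVec x := fun i => by
    refine eq_of_homPts (goodOp_mem i (ofVec_mem x)) (fun γ hγ => ?_) fun b => ?_
    · rw [AddMonoidHom.smul_apply, ofVec_mem x γ hγ, smul_zero]
    · rw [goodOp_apply_homPts i (ofVec_mem x), AddMonoidHom.smul_apply]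
      simpa [ofVec_apply, Matrix.mulVec, dotProduct] using congrFun (hx i) b
  refine ⟨ofVec x, fun h => hx0 (funext fun b => ?_), ofVec_mem x, fun p hp hpM => ?_,
    fun u y hy => ?_⟩
  · rw [← ofVec_apply x b, h]; rfl
  · exact hev (.inl ⟨p, hp.out, hpM⟩)
  · obtain rfl : y = dZ u := Subtype.ext hy
    exact hev (.inr u)

end Fermat.Agent.DeligneSerre
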