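import Fermat.Agent.DeligneSerre.Residue
import Mathlib.FieldTheory.IsAlgClosed.Basic
import Mathlib.NumberTheory.DirichletCharacter.Basic
import Mathlib.RingTheory.RootsOfUnity.Complex
import Mathlib.FieldTheory.Finite.Basic
import Mathlib.RingTheory.Polynomial.Cyclotomic.Roots

/-!
# The inverse Teichmüller character of a residue field of the algebraic integers
-/

set_option autoImplicit false

noncomputable section

namespace Fermat.Agent.DeligneSerre

open Polynomial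

/-- A residue field of the algebraic integers is algebraically closed. -/
theorem isAlgClosed_of_surjective {k : Type*} [Field k] (φ : ZBar →+* k)
    (hφ : Function.Surjective φ) : IsAlgClosed k := by
  refine IsAlgClosed.of_exists_root k fun p hm hirr => ?_
  obtain ⟨q, hq, hqd, hqm⟩ : ∃ q : ZBar[X], q.map φ = p ∧ q.degree = p.degree ∧ q.Monic :=
    lifts_and_degree_eq_and_monic ((lifts_iff_coeff_lifts p).2 fun n => hφ _) hm
  have hd : (q.map (algebraMap ZBar ℂ)).degree ≠ 0 := by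
    rw [hqm.degree_map, hqd]
    exact (degree_pos_of_irreducible hirr).ne'
  obtain ⟨z, hz⟩ := IsAlgClosed.exists_root _ hd
  rw [IsRoot.def, eval_map] at hz
  have hzint : IsIntegral ℤ z := isIntegral_trans (R := ℤ) (A := ZBar) z ⟨q, hqm, hz⟩
  let z' : ZBar := ⟨z, hzint⟩
  have h0 : q.eval z' = 0 := by
    refine Subtype.val_injective ?_
    have : (algebraMap ZBar ℂ) (q.eval z') = q.eval₂ (algebraMap ZBar ℂ) z := by
      rw [← eval₂_at_apply]; rfl
    rw [hz] at this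
    exact this
  exact ⟨φ z', by
    rw [← hq, eval_map, eval₂_at_apply, h0, map_zero]⟩

variable {ℓ : ℕ} [hℓ : Fact ℓ.Prime] {k : Type*} [Field k] [CharP k ℓ]

/-- A character of order dividing `ℓ - 1` which is the inverse of the identity modulo `ℓ`. -/
theorem exists_invTeichmuller (h2 : ℓ ≠ 2) (φ : ZBar →+* k) :
    ∃ (ψ : DirichletCharacter ℂ ℓ) (ω : (ZMod ℓ)ˣ → ZBar), ψ.Odd ∧
      ∀ u, (ω u : ℂ) = ψ (u : ZMod ℓ) ∧
        φ (ω u) * (ZMod.castHom dvd_rfl k (u : ZMod ℓ)) = 1 := by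
  classical
  set n := Fintype.card (ZMod ℓ)ˣ with hn
  have hn1 : n = ℓ - 1 := ZMod.card_units ℓ
  have hnpos : 0 < n := Fintype.card_pos
  have hnk : (n : k) ≠ 0 := by
    rw [Ne, CharP.cast_eq_zero_iff k ℓ]
    intro h
    have := Nat.le_of_dvd hnpos h
    have := hℓ.out.two_le
    omega
  have : NeZero n := ⟨hnpos.ne'⟩
  obtain ⟨ζ₀, hζ₀⟩ : ∃ ζ : ℂ, IsPrimitiveRoot ζ n :=
    ⟨_, Complex.isPrimitiveRoot_exp n hnpos.ne'⟩
  let ζ : ZBar := ⟨ζ₀, IsIntegral.of_pow hnpos (by rw [hζ₀.pow_eq_one]; exact isIntegral_one)⟩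
  have hζ : IsPrimitiveRoot ζ n :=
    IsPrimitiveRoot.of_map_of_injective (f := algebraMap ZBar ℂ) hζ₀ Subtype.val_injective
  have : NeZero (n : k) := ⟨hnk⟩
  have hk : IsPrimitiveRoot (φ ζ) n := by
    rw [← isRoot_cyclotomic_iff, ← map_cyclotomic n φ]
    exact (hζ.isRoot_cyclotomic hnpos).map
  obtain ⟨g, hg⟩ := IsCyclic.exists_monoid_generator (α := (ZMod ℓ)ˣ)
  have hg' : ∀ x, x ∈ Subgroup.zpowers g := fun x => by
    obtain ⟨i, hi⟩ := Submonoid.mem_powers_iff _ _ |>.1 (hg x)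
    exact hi ▸ Subgroup.npow_mem_zpowers g i
  have hgk : (ZMod.castHom dvd_rfl k ((g⁻¹ : (ZMod ℓ)ˣ) : ZMod ℓ)) ^ n = 1 := by
    rw [← map_pow, ← Units.val_pow_eq_pow_val, pow_card_eq_one, Units.val_one, map_one]
  obtain ⟨i, -, hi⟩ := hk.eq_pow_of_pow_eq_one hgk
  let z : ZBarˣ := (hζ.isUnit hnpos.ne').unit ^ i
  have hz : z ^ n = 1 := Units.ext (by
    simp only [z, Units.val_pow_eq_pow_val, IsUnit.unit_spec, Units.val_one]
    rw [← pow_mul, mul_comm, pow_mul, hζ.pow_eq_one, one_pow])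
  have hord : orderOf z ∣ orderOf g := by
    rw [orderOf_eq_card_of_forall_mem_zpowers hg', Nat.card_eq_fintype_card]
    exact orderOf_dvd_of_pow_eq_one hz
  let χ : (ZMod ℓ)ˣ →* ZBarˣ := monoidHomOfForallMemZpowers hg' hord
  have hχg : χ g = z := monoidHomOfForallMemZpowers_apply_gen hg' hord
  have hχ : ∀ u : (ZMod ℓ)ˣ,
      φ (χ u : ZBar) * (ZMod.castHom dvd_rfl k (u : ZMod ℓ)) = 1 := by
    intro u
    obtain ⟨j, rfl⟩ := Submonoid.mem_powers_iff _ _ |>.1 (hg u)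
    rw [map_pow, Units.val_pow_eq_pow_val, Units.val_pow_eq_pow_val, map_pow, map_pow, ← mul_pow,
      hχg]
    simp only [z, Units.val_pow_eq_pow_val, IsUnit.unit_spec, map_pow]
    rw [hi, ← map_mul, Units.inv_mul, map_one, one_pow]
  let ψu : (ZMod ℓ)ˣ →* ℂˣ := (Units.map (algebraMap ZBar ℂ).toMonoidHom).comp χ
  refine ⟨MulChar.ofUnitHom ψu, fun u => (χ u : ZBar), ?_, fun u =>
    ⟨(MulChar.ofUnitHom_coe ψu u).symm, hχ u⟩⟩
  show MulChar.ofUnitHom ψu (-1) = -1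
  have hu : ((-1 : (ZMod ℓ)ˣ) : ZMod ℓ) = -1 := by simp
  rw [← hu, MulChar.ofUnitHom_coe]
  set w : ℂ := ((ψu (-1) : ℂˣ) : ℂ) with hw
  have hsq : w ^ 2 = 1 := by
    rw [hw, ← Units.val_pow_eq_pow_val, ← map_pow, neg_one_sq, map_one, Units.val_one]
  rcases sq_eq_one_iff.1 hsq with h | h
  · exfalso
    have h1 : (χ (-1) : ZBar) = 1 := Subtype.val_injective h
    have h3 := hχ (-1)
    rw [h1, map_one, one_mul, hu, map_neg, map_one] at h3
    refine h2 ((Nat.prime_dvd_prime_iff_eq hℓ.out Nat.prime_two).1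
      ((CharP.cast_eq_zero_iff k ℓ 2).1 ?_))
    push_cast
    linear_combination -h3
  · exact h

end Fermat.Agent.DeligneSerre
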