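import Fermat.Agent.DeligneSerre.ConnectedRam
import Mathlib.FieldTheory.KummerPolynomial
import Mathlib.RingTheory.RootsOfUnity.AlgebraicallyClosed

/-!
# Adjoining an `m`-th root of a function with divisor divisible by `m` is unramified
-/

set_option autoImplicit false
set_option linter.unusedSectionVars false

noncomputable section

open scoped Classical
open Polynomial AlgebraicCurve

namespace Fermat.Agent.DeligneSerre

open Fermat.Agent.FF Fermat.Agent.EichlerShimura

variable {K F : Type*} [Field K] [IsAlgClosed K] [Field F] [Algebra K F] [IsFunctionField K F]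

theorem ramificationIndex_adjoinRoot {m : ℕ} (hm : m.Prime) (hmK : (m : K) ≠ 0) {f : F}
    (hf0 : f ≠ 0) [hirr : Fact (Irreducible (X ^ m - C f : F[X]))]
    [IsFunctionField K (AdjoinRoot (X ^ m - C f : F[X]))]
    [FiniteDimensional F (AdjoinRoot (X ^ m - C f : F[X]))]
    (hdiv : ∀ Q : Place K F, (m : ℤ) ∣ Q.ord f)
    (P : Place K (AdjoinRoot (X ^ m - C f : F[X]))) : P.ramificationIndex F = 1 := by
  set F' := AdjoinRoot (X ^ m - C f : F[X])
  set Q := P.restrict F with hQ
  have hmon : (X ^ m - C f : F[X]).Monic := monic_X_pow_sub_C _ hm.ne_zero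
  set r : F' := AdjoinRoot.root _ with hrdef
  have hr : r ^ m = algebraMap F F' f := by
    have h := AdjoinRoot.eval₂_root (X ^ m - C f : F[X])
    rw [eval₂_sub, eval₂_X_pow, eval₂_C, sub_eq_zero] at h
    exact h
  have hfF : algebraMap F F' f ≠ 0 := (_root_.map_ne_zero _).mpr hf0
  obtain ⟨k, hk⟩ := hdiv Q
  obtain ⟨t, ht0, ht⟩ := exists_ord_eq Q k
  have htF : algebraMap F F' t ≠ 0 := (_root_.map_ne_zero _).mpr ht0
  set w : F' := r / algebraMap F F' t with hwdef
  have hr0 : r ≠ 0 := fun h => hfF (by rw [← hr, h, zero_pow hm.ne_zero])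
  have hw0 : w ≠ 0 := div_ne_zero hr0 htF
  have hwm : w ^ m = algebraMap F F' (f / t ^ m) := by rw [hwdef, div_pow, hr, map_div₀, map_pow]
  have hu : Q.ord (f / t ^ m) = 0 := by
    rw [FF.ord_div Q hf0 (pow_ne_zero _ ht0), FF.ord_pow, hk, ht, sub_self]
  have hPw : P.ord w = 0 := by
    have h := P.ord_restrict (F := F) (f / t ^ m)
    rw [← hwm, FF.ord_pow, ← hQ, hu, mul_zero] at h
    exact (mul_eq_zero.mp h).resolve_left (by exact_mod_cast hm.ne_zero)
  have hwP : w ∈ P.toValuationSubring := (FF.mem_iff_ord P hw0).mpr hPw.ge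
  set c := valAtP P ⟨w, hwP⟩ with hcdef
  have hc : w - algebraMap K F' c ∈ ordGe P 1 := sub_valAtP_mem P hwP
  have hc0 : c ≠ 0 := fun h0 => by
    rw [h0, map_zero, sub_zero] at hc
    have := le_ord_of_mem_ordGe P hw0 hc
    omega
  have : NeZero (m : K) := ⟨hmK⟩
  obtain ⟨ζ, hζ⟩ := HasEnoughRootsOfUnity.exists_primitiveRoot K m
  -- the automorphisms
  have hroot : ∀ i : Fin m, (X ^ m - C f : F[X]).eval₂ (Algebra.ofId F F' : F →+* F')
      (algebraMap K F' (ζ ^ (i : ℕ)) * r) = 0 := fun i => by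
    have h1 : (ζ ^ (i : ℕ)) ^ m = 1 := by
      rw [← pow_mul, mul_comm, pow_mul, hζ.pow_eq_one, one_pow]
    rw [eval₂_sub, eval₂_X_pow, eval₂_C, mul_pow, hr, ← map_pow, h1, map_one, one_mul, sub_eq_zero]
    rfl
  let σ₀ : Fin m → (F' →ₐ[F] F') := fun i => AdjoinRoot.liftAlgHom _ (Algebra.ofId F F') _ (hroot i)
  have hbij : ∀ i, Function.Bijective (σ₀ i) := fun i => (σ₀ i).bijective
  let σ : Fin m → (F' ≃+* F') := fun i => RingEquiv.ofBijective (σ₀ i).toRingHom (hbij i)
  have hσF : ∀ i (y : F), σ i (algebraMap F F' y) = algebraMap F F' y := fun i y => (σ₀ i).commutes y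
  have hσK : ∀ i (a : K), σ i (algebraMap K F' a) = algebraMap K F' a := fun i a => by
    rw [IsScalarTower.algebraMap_apply K F F', hσF]
  have hσr : ∀ i, σ i r = algebraMap K F' (ζ ^ (i : ℕ)) * r := fun i =>
    AdjoinRoot.liftAlgHom_root _ _ _ (hroot i)
  let g : Fin m → SemilinearAut K F' := fun i => ⟨(σ i, RingEquiv.refl K), hσK i⟩
  have hg : ∀ i (y : F'), (g i • P).ord (σ i y) = P.ord y := fun i y =>
    SemilinearAut.ord_smul (g i) P y
  have hres : ∀ i, (g i • P).restrict F = Q := fun i => by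
    refine FF.eq_of_le fun y hy => ?_
    rcases eq_or_ne y 0 with rfl | hy0
    · exact zero_mem _
    have hy' : algebraMap F F' y ≠ 0 := (_root_.map_ne_zero _).mpr hy0
    rw [Place.mem_restrict_iff, FF.mem_iff_ord _ hy'] at hy
    rw [hQ, Place.mem_restrict_iff, FF.mem_iff_ord _ hy']
    rwa [← hσF i y, hg] at hy
  -- the places are distinct
  have hinj : Function.Injective fun i => g i • P := by
    intro i j hij
    have key : ∀ l : Fin m,
        algebraMap K F' (ζ ^ (l : ℕ)) * w - algebraMap K F' c ∈ ordGe (g l • P) 1 := fun l => by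
      have hσw : σ l (w - algebraMap K F' c) =
          algebraMap K F' (ζ ^ (l : ℕ)) * w - algebraMap K F' c := by
        rw [map_sub, hσK, hwdef, map_div₀, hσr, hσF, mul_div_assoc]
      rw [← hσw]
      rcases eq_or_ne (w - algebraMap K F' c) 0 with h0 | h0
      · rw [h0, map_zero]; exact zero_mem _
      · exact mem_ordGe_of_le _ (by rw [hg]; exact le_ord_of_mem_ordGe P h0 hc)
    have h1 := key i
    have h2 := key j
    simp only at hij
    rw [← hij] at h2
    have h3 : algebraMap K F' c * algebraMap K F' (ζ ^ (i : ℕ) - ζ ^ (j : ℕ)) ∈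
        ordGe (g i • P) 1 := by
      have h4 := sub_mem (Submodule.smul_mem _ (ζ ^ (j : ℕ)) h1) (Submodule.smul_mem _ (ζ ^ (i : ℕ)) h2)
      simp only [Algebra.smul_def] at h4
      convert h4 using 1
      rw [map_sub]; ring
    rw [← map_mul] at h3
    by_contra hne
    have hne' : c * (ζ ^ (i : ℕ) - ζ ^ (j : ℕ)) ≠ 0 :=
      mul_ne_zero hc0 (sub_ne_zero.mpr fun h => hne (Fin.ext (hζ.pow_inj i.2 j.2 h)))
    have h5 := le_ord_of_mem_ordGe _ ((_root_.map_ne_zero (algebraMap K F')).mpr hne') h3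
    rw [FF.ord_algebraMap] at h5
    omega
  -- the count
  have hsum := sum_ramification_inertia (F' := F') Q
  have hrank : Module.finrank F F' = m := by
    rw [PowerBasis.finrank (AdjoinRoot.powerBasis' hmon), AdjoinRoot.powerBasis'_dim,
      natDegree_X_pow_sub_C]
  rw [hrank] at hsum
  have hdeg : ∀ v ∈ Q.fiber F', (v.inertiaDeg F : ℤ) = 1 := fun v _ => by
    exact_mod_cast inertiaDeg_eq_one v
  rw [Finset.sum_congr rfl fun v hv => by rw [hdeg v hv, mul_one]] at hsum
  have hsub : Finset.univ.image (fun i => g i • P) ⊆ Q.fiber F' := fun v hv => by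
    obtain ⟨i, -, rfl⟩ := Finset.mem_image.mp hv
    exact Place.mem_fiber.mpr (hres i)
  have hle : (m : ℤ) ≤ (Q.fiber F').card := by
    have := Finset.card_le_card hsub
    rw [Finset.card_image_of_injective _ hinj, Finset.card_univ, Fintype.card_fin] at this
    exact_mod_cast this
  by_contra hne
  have hpos : ∀ v : Place K F', 1 ≤ (v.ramificationIndex F : ℤ) := fun v => by
    exact_mod_cast e_pos (F := F) v
  have hP : P ∈ Q.fiber F' := Place.mem_fiber.mpr rfl
  have h2 : ((Q.fiber F').card : ℤ) < m := by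
    rw [← hsum, Finset.card_eq_sum_ones, Nat.cast_sum]
    refine Finset.sum_lt_sum (fun v _ => by simpa using hpos v) ⟨P, hP, ?_⟩
    have := hpos P
    have h3 : (P.ramificationIndex F : ℤ) ≠ 1 := by exact_mod_cast hne
    push_cast
    omega
  omega

end Fermat.Agent.DeligneSerre
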