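import Fermat.Agent.DeligneSerre.Periods
import Fermat.Agent.DeligneSerre.Reduction
import Fermat.Agent.DeligneSerre.ModRep
import Fermat.Agent.DeligneSerre.TeichmullerChar

/-!
# Residual representations of weight one eigenforms

Multiplying by an Eisenstein series of weight one congruent to a constant modulo `ℓ` gives a form of
weight two and level `N ℓ` with the same eigenvalues modulo `ℓ`; its eigenclass in the
cohomology of `±Γ₁(N ℓ)` carries the residual representation.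
-/

set_option autoImplicit false
set_option linter.unusedSectionVars false

noncomputable section

namespace Fermat.Agent.DeligneSerre

open CongruenceSubgroup ModularFormClass UpperHalfPlane ModularForm
open Fermat.Agent.IntegralStructure
open scoped MatrixGroups Manifold

variable {N : ℕ} [NeZero N]

/-- A nebentypus passes to a higher level. -/
theorem HasNeb.changeLevel {k : ℤ} {ε : DirichletCharacter ℂ N} {f : ℍ → ℂ} (hf : HasNeb k ε f)
    {M : ℕ} [NeZero M] (hd : N ∣ M) : HasNeb k (DirichletCharacter.changeLevel hd ε) f := by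
  intro γ hγ
  obtain ⟨u, hu⟩ := isUnit_lowerRight hγ
  have h0 : γ ∈ Gamma0 N := by
    rw [Gamma0_mem, ZMod.intCast_zmod_eq_zero_iff_dvd]
    exact dvd_trans (Int.natCast_dvd_natCast.2 hd)
      ((ZMod.intCast_zmod_eq_zero_iff_dvd _ M).1 (Gamma0_mem.1 hγ))
  rw [hf γ h0, ← hu, DirichletCharacter.changeLevel_eq_cast_of_dvd ε hd, hu,
    ZMod.cast_intCast hd]

theorem changeLevel_natCast {M : ℕ} [NeZero M] (hd : N ∣ M) (χ : DirichletCharacter ℂ N) {p : ℕ}
    (hp : p.Prime) (hpM : ¬ p ∣ M) :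
    DirichletCharacter.changeLevel hd χ (p : ZMod M) = χ (p : ZMod N) := by
  obtain ⟨u, hu⟩ := (ZMod.isUnit_prime_iff_not_dvd hp).2 hpM
  rw [← hu, DirichletCharacter.changeLevel_eq_cast_of_dvd χ hd, hu, ZMod.cast_natCast hd]

variable {ε : DirichletCharacter ℂ N} {g : CuspForm (Gamma1 N) 1}

/-- A weight two form congruent to `g`. -/
theorem exists_weightTwo (hg : IsDepleted ε (qCoeff g)) {M ℓ : ℕ} [NeZero M] [hℓ : Fact ℓ.Prime]
    (hdN : N ∣ M) (hdl : ℓ ∣ M) {k : Type} [Field k] [CharP k ℓ] (φ : ZBar →+* k)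
    {ψ : DirichletCharacter ℂ ℓ} (hψ : ψ.Odd) {ω : (ZMod ℓ)ˣ → ZBar}
    (hω : ∀ u, (ω u : ℂ) = ψ (u : ZMod ℓ) ∧
      φ (ω u) * (ZMod.castHom dvd_rfl k (u : ZMod ℓ)) = 1) :
    ∃ (F : CuspForm (Gamma1 M) 2) (A : ℕ → ZBar),
      HasNeb 2 (DirichletCharacter.changeLevel hdN ε * DirichletCharacter.changeLevel hdl ψ) ⇑F ∧
      (∀ n, (A n : ℂ) = qCoeff F n) ∧
      ∀ n (x : ZBar), (x : ℂ) = qCoeff g n → φ (A n) = φ x := by
  classical
  set c : ℂ := ((2 * ℓ : ℕ) : ℂ) with hc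
  set E : ℍ → ℂ := c • eisOne ψ with hE
  have hnebE : HasNeb 1 ψ E := fun γ hγ => by
    rw [hE, ModularForm.SL_smul_slash, eisOne_slash_gamma0 hψ hγ, smul_comm]
  have hneb : HasNeb 2
      (DirichletCharacter.changeLevel hdN ε * DirichletCharacter.changeLevel hdl ψ) (⇑g * E) := by
    have := (hg.hecke.nebentypus.changeLevel hdN).mul (hnebE.changeLevel hdl)
    exact this
  let F : CuspForm (Gamma1 M) 2 := mkCuspForm (Gamma1 M) 2 (⇑g * E)
    (fun γ hγ => hneb.slash_gamma1 hγ)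
    ((CuspFormClass.holo g).mul ((mdifferentiable_eisOne hψ).const_smul c))
    (fun γ => by
      rw [show (2 : ℤ) = 1 + 1 from rfl, ModularForm.mul_slash_SL2]
      refine (CuspFormClass.zero_at_infty_slash g γ).mul_boundedAtFilter ?_
      rw [hE, ModularForm.SL_smul_slash]
      exact Filter.BoundedAtFilter.smul _ (isBoundedAtImInfty_slash_eisOne hψ γ))
  let qg : qFun := ⟨⇑g, mem_qFun_of_modularFormClass (by simp) g⟩
  let qe : qFun := ⟨eisOne ψ, eisOne_mem_qFun hψ⟩
  let a : ℕ → ZBar := fun n => ⟨qCoeff g n, isIntegral_coeff hg n⟩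
  let e : ℕ → ZBar := fun n => if n = 0 then
      -∑ t : ZMod ℓ, (t.val : ZBar) * ⟨ψ t, isIntegral_character ψ t⟩
    else ((2 * ℓ : ℕ) : ZBar) * ∑ d ∈ n.divisors, ⟨ψ (d : ZMod ℓ), isIntegral_character ψ _⟩
  have he : ∀ n, (e n : ℂ) = c * eisCoeff ψ n := fun n => by
    rcases eq_or_ne n 0 with rfl | hn
    · simp only [e, if_pos rfl, hc, Nat.cast_mul, Nat.cast_ofNat]
      rw [eisCoeff_zero_mul]
      push_cast
      rfl
    · simp only [e, eisCoeff, if_neg hn, hc]
      push_cast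
      rfl
  have hφe : ∀ n, φ (e n) = if n = 0 then 1 else 0 := fun n => by
    rcases eq_or_ne n 0 with rfl | hn
    · simp only [e, if_pos rfl, map_neg, map_sum, map_mul, map_natCast]
      have hterm : ∀ t : ZMod ℓ, (t.val : k) * φ ⟨ψ t, isIntegral_character ψ t⟩ =
          if t = 0 then 0 else 1 := fun t => by
        rcases eq_or_ne t 0 with rfl | ht
        · simp
        · rw [if_neg ht]
          obtain ⟨h1, h2⟩ := hω (Units.mk0 t ht)
          rw [show (⟨ψ t, isIntegral_character ψ t⟩ : ZBar) = ω (Units.mk0 t ht) from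
            Subtype.ext h1.symm, mul_comm, ← map_natCast (ZMod.castHom (dvd_refl ℓ) k) t.val,
            ZMod.natCast_zmod_val]
          exact h2
      simp only [hterm, Finset.sum_ite, Finset.sum_const_zero, zero_add, Finset.sum_const,
        nsmul_eq_mul, mul_one]
      rw [show (Finset.univ.filter fun t : ZMod ℓ => ¬ t = 0) = Finset.univ.erase 0 by ext; simp,
        Finset.card_erase_of_mem (Finset.mem_univ _), Finset.card_univ, ZMod.card,
        Nat.cast_sub hℓ.out.one_le, CharP.cast_eq_zero k ℓ]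
      simp
    · simp only [e, if_neg hn, map_mul, map_natCast, Nat.cast_mul, CharP.cast_eq_zero k ℓ,
        mul_zero, zero_mul]
  refine ⟨F, fun n => ∑ x ∈ Finset.HasAntidiagonal.antidiagonal n, a x.1 * e x.2, hneb, fun n => ?_,
    fun n x hx => ?_⟩
  · have hF : qExpansion 1 (⇑F) = qHom (qg * c • qe) := rfl
    show _ = (qExpansion 1 ⇑F).coeff n
    rw [hF, map_mul, map_smul, PowerSeries.coeff_mul, AddSubmonoidClass.coe_finsetSum]
    refine Finset.sum_congr rfl fun x _ => ?_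
    rw [PowerSeries.coeff_smul, Subalgebra.coe_mul, he, smul_eq_mul, qHom_apply, qHom_apply]
    rw [show (qExpansion 1 ((qe : qFun) : ℍ → ℂ)).coeff x.2 = eisCoeff ψ x.2 from
      qExpansion_eisOne hψ x.2]
    rfl
  · rw [map_sum, Finset.sum_eq_single (n, 0)]
    · rw [map_mul, hφe, if_pos rfl, mul_one, show a n = x from Subtype.ext hx.symm]
    · intro y hy hne
      rw [map_mul, hφe, if_neg, mul_zero]
      intro h0
      have := Finset.HasAntidiagonal.mem_antidiagonal.1 hy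
      exact hne (Prod.ext (by simp only; omega) h0)
    · simp

theorem goodLevel_of_prime_dvd {M ℓ : ℕ} [NeZero M] [hℓ : Fact ℓ.Prime] (h7 : 7 ≤ ℓ)
    (hd : ℓ ∣ M) : Curve.GoodLevel M := by
  obtain ⟨g, hg⟩ := IsCyclic.exists_generator (α := (ZMod ℓ)ˣ)
  have ho : orderOf g = ℓ - 1 := by
    rw [orderOf_eq_card_of_forall_mem_zpowers hg, Nat.card_eq_fintype_card, ZMod.card_units]
  obtain ⟨c, rfl⟩ := ZMod.unitsMap_surjective hd g
  refine ⟨c, fun h => ?_⟩
  have := orderOf_le_of_pow_eq_one (show 0 < 4 by norm_num)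
    (show (ZMod.unitsMap hd c) ^ 4 = 1 by rw [← map_pow, h, map_one])
  omega

/-- Residual representations exist. -/
theorem hasResidualReps (hg : IsDepleted ε (qCoeff g)) : HasResidualReps ε (qCoeff g) := by
  refine ⟨Finset.range (max 7 (N + 1)), fun ℓ hℓ hℓS => ?_⟩
  rw [Finset.mem_range, not_lt, max_le_iff] at hℓS
  obtain ⟨h7, hN⟩ := hℓS
  have := Fact.mk hℓ
  obtain ⟨I, hI, hℓI⟩ := exists_maximal_above hℓ
  let _ : Field (ZBar ⧸ I) := Ideal.Quotient.field I
  let φ : ZBar →+* ZBar ⧸ I := Ideal.Quotient.mk I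
  have hφℓ : φ ℓ = 0 := Ideal.Quotient.eq_zero_iff_mem.2 hℓI
  have hchar : CharP (ZBar ⧸ I) ℓ := (CharP.charP_iff_prime_eq_zero hℓ).2 (by rw [← map_natCast φ]; exact hφℓ)
  have := isAlgClosed_of_surjective φ Ideal.Quotient.mk_surjective
  have h2 : (2 : ZBar ⧸ I) ≠ 0 := by
    have := natCast_ne_zero_of_map_eq_zero hℓ hφℓ two_ne_zero (by omega)
    simpa using this
  obtain ⟨ψ, ω, hψ, hω⟩ := exists_invTeichmuller (k := ZBar ⧸ I) (by omega) φ
  have : NeZero (N * ℓ) := ⟨mul_ne_zero (NeZero.ne N) hℓ.ne_zero⟩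
  have hdN : N ∣ N * ℓ := dvd_mul_right N ℓ
  have hdl : ℓ ∣ N * ℓ := dvd_mul_left ℓ N
  have := goodLevel_of_prime_dvd h7 hdl
  obtain ⟨F, A, hneb, hA, hAφ⟩ := exists_weightTwo hg hdN hdl φ hψ hω
  let a : ℕ → ZBar := fun n => ⟨qCoeff g n, isIntegral_coeff hg n⟩
  let εZ : (ZMod (N * ℓ))ˣ →* ZBar :=
    { toFun := fun u => ⟨DirichletCharacter.changeLevel hdN ε (u : ZMod (N * ℓ)),
        isIntegral_character _ _⟩
      map_one' := Subtype.ext (by simp)
      map_mul' := fun u v => Subtype.ext (by simp [map_mul]) }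
  -- the twisted character modulo `ℓ`
  have hδ : ∀ p : ℕ, p.Prime → ¬ p ∣ N * ℓ → ∀ y z : ZBar,
      (y : ℂ) = (DirichletCharacter.changeLevel hdN ε * DirichletCharacter.changeLevel hdl ψ)
        (p : ZMod (N * ℓ)) → (z : ℂ) = ε (p : ZMod N) →
      (p : ZBar ⧸ I) * φ y = φ z := by
    intro p hp hpM y z hy hz
    obtain ⟨u, hu⟩ := (ZMod.isUnit_prime_iff_not_dvd hp).2 fun h => hpM (h.trans hdl)
    obtain ⟨h1, h3⟩ := hω u
    have hyz : y = z * ω u := Subtype.ext (by
      rw [MulChar.mul_apply, changeLevel_natCast hdN ε hp hpM,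
        changeLevel_natCast hdl ψ hp hpM, ← hu, ← h1, ← hz] at hy
      exact hy)
    rw [hu, map_natCast] at h3
    rw [hyz, map_mul, mul_comm, mul_assoc, h3, mul_one]
  obtain ⟨v, hv, hvmem, hvT, hvD⟩ := exists_periodClass (f := F) hneb hℓ φ hφℓ A hA
    (by rw [hAφ 1 1 (by rw [hg.one]; rfl), map_one])
    (fun p hp hpM n y hy => by
      have hpN : ¬ p ∣ N := fun h => hpM (h.trans hdN)
      let e : ZBar := ⟨ε (p : ZMod N), isIntegral_character ε _⟩
      rw [hAφ _ (a (p * n)) rfl, hAφ _ (a p) rfl, hAφ _ (a n) rfl, hAφ _ (a (n / p)) rfl,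
        hδ p hp hpM y e hy rfl]
      have h := hg.hecke p hp hpN n
      have h' : a (p * n) + e * (if p ∣ n then a (n / p) else 0) = a p * a n := Subtype.ext (by
        by_cases hd : p ∣ n <;> simpa [a, e, hd] using h)
      rw [← map_mul φ (a p), ← h', map_add, map_mul, apply_ite φ, map_zero])
  let D : (ZMod (N * ℓ))ˣ → ZBar ⧸ I := fun u => φ
    ⟨(DirichletCharacter.changeLevel hdN ε * DirichletCharacter.changeLevel hdl ψ) (u : ZMod (N * ℓ)),
      isIntegral_character _ _⟩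
  let Ψ : (ZMod (N * ℓ))ˣ →* ZBar ⧸ I := φ.toMonoidHom.comp εZ
  obtain ⟨ρ, hfin, hshape, hρ⟩ := exists_modRep (m := ℓ) (k := ZBar ⧸ I) h2
    (α := fun p => φ (A p)) (D := D) hv hvmem
    (fun p _ hp => hvT p hp) (fun u => hvD u _ rfl) Ψ (fun p hp hpM => by
      refine (hδ p hp.out hpM _ (εZ (Curve.pU hpM)) ?_ ?_).symm
      · show _ = _
        rw [Curve.pU, ZMod.coe_unitOfCoprime]
      · show DirichletCharacter.changeLevel hdN ε
          ((Curve.pU hpM : (ZMod (N * ℓ))ˣ) : ZMod (N * ℓ)) = _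
        rw [Curve.pU, ZMod.coe_unitOfCoprime, changeLevel_natCast hdN ε hp.out hpM])
  refine ⟨{ k := ZBar ⧸ I, φ := φ, map_eq_zero := hφℓ, ρ := ρ, finite_level := hfin,
            shape := hshape, inertia := ?_, frobenius := ?_ }⟩
  · intro p hp hpN hpl B hB σ hσ
    have := Fact.mk hp
    have hpM : ¬ p ∣ N * ℓ := fun h => (hp.dvd_mul.1 h).elim hpN fun h' =>
      hpl ((Nat.prime_dvd_prime_iff_eq hp hℓ).1 h')
    exact (hρ p hpM hpl B hB).1 σ hσ
  · intro p hp hpN hpl B hB σ hσ x y hx hy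
    have := Fact.mk hp
    have hpM : ¬ p ∣ N * ℓ := fun h => (hp.dvd_mul.1 h).elim hpN fun h' =>
      hpl ((Nat.prime_dvd_prime_iff_eq hp hℓ).1 h')
    obtain ⟨ht, hd⟩ := (hρ p hpM hpl B hB).2 σ hσ
    refine ⟨ht.trans (hAφ p x hx), hd.trans (congrArg φ (Subtype.ext ?_))⟩
    rw [hy]
    show DirichletCharacter.changeLevel hdN ε
      ((Curve.pU hpM : (ZMod (N * ℓ))ˣ) : ZMod (N * ℓ)) = _
    rw [Curve.pU, ZMod.coe_unitOfCoprime, changeLevel_natCast hdN ε hp hpM]

end Fermat.Agent.DeligneSerre
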